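-- Statement S02 (row 2): a counterexample to FLT for a prime p ≥ 5 yields a Frey package.
import Fermat.Statements.S02

set_option autoImplicit false
open FreyPackage

namespace Fermat.Agent.S02

/-- Coprime case with `b` even: possibly after negating everything, we get a Frey package. -/
theorem aux_b_even (a b c : ℤ) (ha : a ≠ 0) (hb : b ≠ 0) (hc : c ≠ 0) (p : ℕ)
    (pp : p.Prime) (hp5 : 5 ≤ p) (H : a ^ p + b ^ p = c ^ p)
    (hgcd : Int.gcd a b = 1) (hb2 : (2 : ℤ) ∣ b) : Nonempty FreyPackage := by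
  have hp_odd : Odd p := pp.odd_of_ne_two (by omega)
  have ha_odd : ¬ (2 : ℤ) ∣ a := by
    intro h2a
    have h : (2 : ℤ) ∣ ((Int.gcd a b : ℕ) : ℤ) := Int.dvd_coe_gcd h2a hb2
    rw [hgcd] at h
    norm_num at h
  have hmod : a % 4 = 1 ∨ a % 4 = 3 := by omega
  rcases hmod with h1 | h3
  · refine ⟨{ a := -a, b := -b, c := -c, ha0 := neg_ne_zero.2 ha, hb0 := neg_ne_zero.2 hb,
              hc0 := neg_ne_zero.2 hc, p := p, pp := pp, hp5 := hp5,
              hFLT := ?_, hgcdab := ?_, ha4 := ?_, hb2 := ?_ }⟩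
    · rw [hp_odd.neg_pow, hp_odd.neg_pow, hp_odd.neg_pow, ← H]; ring
    · rw [← Int.coe_gcd, Int.neg_gcd, Int.gcd_neg, hgcd]; rfl
    · have h : ((-a : ℤ) : ZMod 4) = ((3 : ℤ) : ZMod 4) := by
        rw [ZMod.intCast_eq_intCast_iff]
        unfold Int.ModEq
        push_cast
        omega
      simpa using h
    · rw [ZMod.intCast_zmod_eq_zero_iff_dvd]
      exact_mod_cast (dvd_neg.2 hb2)
  · refine ⟨{ a := a, b := b, c := c, ha0 := ha, hb0 := hb,
              hc0 := hc, p := p, pp := pp, hp5 := hp5,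
              hFLT := H, hgcdab := ?_, ha4 := ?_, hb2 := ?_ }⟩
    · rw [← Int.coe_gcd, hgcd]; rfl
    · have h : ((a : ℤ) : ZMod 4) = ((3 : ℤ) : ZMod 4) := by
        rw [ZMod.intCast_eq_intCast_iff]
        unfold Int.ModEq
        push_cast
        omega
      simpa using h
    · rw [ZMod.intCast_zmod_eq_zero_iff_dvd]
      exact_mod_cast hb2

/-- Coprime case: exactly one of `a`, `b`, `c` is even, and we may move it to the `b` slot. -/
theorem aux_coprime (a b c : ℤ) (ha : a ≠ 0) (hb : b ≠ 0) (hc : c ≠ 0) (p : ℕ)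
    (pp : p.Prime) (hp5 : 5 ≤ p) (H : a ^ p + b ^ p = c ^ p)
    (hgcd : Int.gcd a b = 1) : Nonempty FreyPackage := by
  have hp_odd : Odd p := pp.odd_of_ne_two (by omega)
  have hp0 : 0 < p := pp.pos
  by_cases hb2 : (2 : ℤ) ∣ b
  · exact aux_b_even a b c ha hb hc p pp hp5 H hgcd hb2
  by_cases ha2 : (2 : ℤ) ∣ a
  · exact aux_b_even b a c hb ha hc p pp hp5 (by rw [add_comm]; exact H)
      (by rw [Int.gcd_comm]; exact hgcd) ha2
  have hc2 : (2 : ℤ) ∣ c := by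
    have h1 : ¬ (2 : ℤ) ∣ a ^ p := fun h => ha2 (Int.prime_two.dvd_of_dvd_pow h)
    have h2 : ¬ (2 : ℤ) ∣ b ^ p := fun h => hb2 (Int.prime_two.dvd_of_dvd_pow h)
    have h3 : (2 : ℤ) ∣ c ^ p := by rw [← H]; omega
    exact Int.prime_two.dvd_of_dvd_pow h3
  have hgcdac : Int.gcd a c = 1 := by
    have h := gcdab_eq_gcdac hp0 H
    rw [← Int.coe_gcd, ← Int.coe_gcd] at h
    have h' : Int.gcd a b = Int.gcd a c := by exact_mod_cast h
    omega
  exact aux_b_even a (-c) (-b) ha (neg_ne_zero.2 hc) (neg_ne_zero.2 hb) p pp hp5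
    (by rw [hp_odd.neg_pow, hp_odd.neg_pow, ← H]; ring)
    (by rw [Int.gcd_neg]; exact hgcdac) (dvd_neg.2 hc2)

theorem result (a b c : ℤ) (ha : a ≠ 0) (hb : b ≠ 0) (hc : c ≠ 0) (p : ℕ) (pp : p.Prime) (hp5 : 5 ≤ p) (H : a ^ p + b ^ p = c ^ p) : Nonempty FreyPackage := by
  have hp0 : p ≠ 0 := pp.ne_zero
  have hdpos : 0 < Int.gcd a b := Int.gcd_pos_of_ne_zero_left b ha
  have hd0 : ((Int.gcd a b : ℕ) : ℤ) ≠ 0 := by exact_mod_cast hdpos.ne'
  obtain ⟨a', ha'⟩ : ((Int.gcd a b : ℕ) : ℤ) ∣ a := Int.gcd_dvd_left ..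
  obtain ⟨b', hb'⟩ : ((Int.gcd a b : ℕ) : ℤ) ∣ b := Int.gcd_dvd_right ..
  have hdc : ((Int.gcd a b : ℕ) : ℤ) ∣ c := by
    rw [← Int.pow_dvd_pow_iff hp0, ← H]
    exact dvd_add (pow_dvd_pow_of_dvd ⟨a', ha'⟩ p) (pow_dvd_pow_of_dvd ⟨b', hb'⟩ p)
  obtain ⟨c', hc'⟩ := hdc
  have ha'0 : a' ≠ 0 := by
    rintro rfl
    exact ha (by rw [ha', mul_zero])
  have hb'0 : b' ≠ 0 := by
    rintro rfl
    exact hb (by rw [hb', mul_zero])
  have hc'0 : c' ≠ 0 := by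
    rintro rfl
    exact hc (by rw [hc', mul_zero])
  have H' : a' ^ p + b' ^ p = c' ^ p := by
    have h : ((Int.gcd a b : ℕ) : ℤ) ^ p * (a' ^ p + b' ^ p)
        = ((Int.gcd a b : ℕ) : ℤ) ^ p * c' ^ p := by
      rw [mul_add, ← mul_pow, ← mul_pow, ← mul_pow, ← ha', ← hb', ← hc']; exact H
    exact mul_left_cancel₀ (pow_ne_zero p hd0) h
  have hgcd' : Int.gcd a' b' = 1 := by
    have h := Int.gcd_div_gcd_div_gcd (i := a) (j := b) hdpos
    have e1 : a / ((Int.gcd a b : ℕ) : ℤ) = a' := Int.ediv_eq_of_eq_mul_right hd0 ha'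
    have e2 : b / ((Int.gcd a b : ℕ) : ℤ) = b' := Int.ediv_eq_of_eq_mul_right hd0 hb'
    rw [e1, e2] at h
    exact h
  exact aux_coprime a' b' c' ha'0 hb'0 hc'0 p pp hp5 H' hgcd'

end Fermat.Agent.S02
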