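-- Statement S05: the mod-p Galois representation of the Frey curve is unramified at odd q ≠ p.
import Fermat.Statements.S05
import Fermat.Agent.S05.FreyLegInst
import Fermat.Agent.S05.Core

set_option autoImplicit false
open WeierstrassCurve WeierstrassCurve.Affine WeierstrassCurve.Affine.Point
open CuspForm ModularFormClass UpperHalfPlane
open FreyPackage

namespace Fermat.Agent.S05

open Fermat.Agent.S05.FreyLeg Fermat.Agent.S05.FreyInst Fermat.Agent.S05.LocalFrey
  Fermat.Agent.S05.FreyLegInst Fermat.Agent.S05.Core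

theorem result (P : FreyPackage) {q : ℕ} (hq : q.Prime) (hq2 : q ≠ 2) (hqp : q ≠ P.p) : P.GaloisRepUnramifiedAt q := by
  intro A hA σ hσ x
  have := FreyInst.charZero (AlgebraicClosure ℚ)
  have hp2 : P.p ≠ 2 := by have := P.hp5; omega
  apply smul_torsion_eq P σ x
  have hx := nsmul_eq_zero_of_mem_torsionBy P x
  rcases frey_three_cases P hq with ⟨hb, hc⟩ | ⟨ha, hc⟩ | ⟨ha, hb⟩
  · have F := freyLocal_A P hq hA hq2 hqp hb hc σ
    exact core (legA P (AlgebraicClosure ℚ)) A (inertiaActA P hσ) exists_sq F.h2 F.he2 F.he12 P.pp hp2 F.hpA F.hd F.hd0 F.hdA F.hσd F.hσe₂ hx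
  · have F := freyLocal_B P hq hA hq2 hqp ha hc σ
    exact core (legB P (AlgebraicClosure ℚ)) A (inertiaActB P hσ) exists_sq F.h2 F.he2 F.he12 P.pp hp2 F.hpA F.hd F.hd0 F.hdA F.hσd F.hσe₂ hx
  · have F := freyLocal_C P hq hA hq2 hqp ha hb σ
    exact core (legC P (AlgebraicClosure ℚ)) A (inertiaActC P hσ) exists_sq F.h2 F.he2 F.he12 P.pp hp2 F.hpA F.hd F.hd0 F.hdA F.hσd F.hσe₂ hx

end Fermat.Agent.S05
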