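-- Statement S07: every weight-2 cusp form of level Γ₀(2) is zero.
-- Proof: Sturm bound for Γ₀(N) (prelude) with index(Γ₀(2)) ≤ 4 gives bound 0, and the constant
-- coefficient of a cusp form vanishes.
import Fermat.Statements.S07
import Fermat.Prelude.Thm_ModularForm_sturm_bound_Gamma0
import Fermat.Prelude.Thm_CongruenceSubgroup_one_mem_strictPeriods_Gamma0

set_option autoImplicit false
open WeierstrassCurve WeierstrassCurve.Affine WeierstrassCurve.Affine.Point
open CuspForm ModularFormClass UpperHalfPlane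
open ModularForm

namespace Fermat.Agent.S07

open scoped MatrixGroups

/-- The first column mod 2 of an element of SL(2, ℤ). -/
def firstCol (g : SL(2, ℤ)) : ZMod 2 × ZMod 2 := ((g.1 0 0 : ZMod 2), (g.1 1 0 : ZMod 2))

lemma inv_mul_entry (g g' : SL(2, ℤ)) :
    (g⁻¹ * g').1 1 0 = -(g.1 1 0) * g'.1 0 0 + g.1 0 0 * g'.1 1 0 := by
  rw [Matrix.SpecialLinearGroup.coe_mul, Matrix.SpecialLinearGroup.coe_inv,
    Matrix.adjugate_fin_two, Matrix.mul_apply, Fin.sum_univ_two]
  simp

lemma inv_mul_mem_of_firstCol_eq (g g' : SL(2, ℤ)) (h : firstCol g = firstCol g') :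
    g⁻¹ * g' ∈ CongruenceSubgroup.Gamma0 2 := by
  rw [CongruenceSubgroup.Gamma0_mem]
  simp only [firstCol, Prod.mk.injEq] at h
  obtain ⟨h1, h2⟩ := h
  change (((g⁻¹ * g').1 1 0 : ℤ) : ZMod 2) = 0
  rw [inv_mul_entry]
  push_cast
  rw [← h1, ← h2]
  ring

/-- A (noncomputable) section of `firstCol`, sending `v` to the class of some `g` with first
column `v` if there is one. -/
noncomputable def cosetOf (v : ZMod 2 × ZMod 2) : SL(2, ℤ) ⧸ CongruenceSubgroup.Gamma0 2 :=
  open Classical in
  if h : ∃ g : SL(2, ℤ), firstCol g = v then QuotientGroup.mk h.choose else QuotientGroup.mk 1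

lemma cosetOf_surjective : Function.Surjective cosetOf := by
  intro x
  induction x using QuotientGroup.induction_on with
  | H g =>
    refine ⟨firstCol g, ?_⟩
    have hex : ∃ g' : SL(2, ℤ), firstCol g' = firstCol g := ⟨g, rfl⟩
    unfold cosetOf
    rw [dif_pos hex]
    rw [QuotientGroup.eq]
    exact inv_mul_mem_of_firstCol_eq _ _ hex.choose_spec

lemma index_Gamma0_two_le : (CongruenceSubgroup.Gamma0 2).index ≤ 4 := by
  rw [Subgroup.index_eq_card]
  calc Nat.card (SL(2, ℤ) ⧸ CongruenceSubgroup.Gamma0 2)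
      ≤ Nat.card (ZMod 2 × ZMod 2) := Nat.card_le_card_of_surjective _ cosetOf_surjective
    _ = 4 := by simp [Nat.card_eq_fintype_card]

theorem result (f : CuspForm (CongruenceSubgroup.Gamma0 2) 2) : f = 0 := by
  have hidx := index_Gamma0_two_le
  have h1 : (1 : ℝ) ∈ (Subgroup.map (Matrix.SpecialLinearGroup.mapGL ℝ)
      (CongruenceSubgroup.Gamma0 2)).strictPeriods :=
    CongruenceSubgroup.one_mem_strictPeriods_Gamma0 2
  have hmf : (ModularFormClass.modularForm f : ModularForm (CongruenceSubgroup.Gamma0 2) 2) = 0 := by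
    apply ModularForm.sturm_bound_Gamma0 2
    intro n hn
    have hn0 : n = 0 := by
      have : ((2 : ℤ) * ((CongruenceSubgroup.Gamma0 2).index : ℤ)).toNat / 12 = 0 := by
        omega
      omega
    subst hn0
    exact CuspFormClass.qExpansion_coeff_zero f one_pos h1
  ext z
  have := congrArg (fun g : ModularForm (CongruenceSubgroup.Gamma0 2) 2 => g z) hmf
  simpa using this

end Fermat.Agent.S07
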