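-- Statement S08: every weight-2 cusp form of level Γ₀(1) is zero.
-- Proof: Sturm bound for Γ₀(N) from the prelude; for N = 1, k = 2 the bound is 0 and the
-- constant q-coefficient of a cusp form vanishes.
import Fermat.Statements.S08
import Fermat.Prelude.Thm_ModularForm_sturm_bound_Gamma0
import Fermat.Prelude.Thm_CongruenceSubgroup_one_mem_strictPeriods_Gamma0

set_option autoImplicit false
open WeierstrassCurve WeierstrassCurve.Affine WeierstrassCurve.Affine.Point
open CuspForm ModularFormClass UpperHalfPlane
open ModularForm

namespace Fermat.Agent.S08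

/-- A weight-`k` cusp form of level `Γ₀(N)` whose Sturm bound `k * index / 12` is `0` vanishes. -/
theorem cuspForm_Gamma0_eq_zero_of_bound (N : ℕ) [NeZero N] {k : ℤ}
    (hk : (k * (CongruenceSubgroup.Gamma0 N).index).toNat / 12 = 0)
    (f : CuspForm (CongruenceSubgroup.Gamma0 N) k) : f = 0 := by
  -- promote `f` to a modular form
  let g : ModularForm (CongruenceSubgroup.Gamma0 N) k :=
    { toSlashInvariantForm := f.toSlashInvariantForm
      holo' := f.holo'
      bdd_at_cusps' := fun {c} hc γ hγ => (f.zero_at_cusps' hc γ hγ).boundedAtFilter }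
  have hg : g = 0 := by
    apply ModularForm.sturm_bound_Gamma0 N g
    intro n hn
    rw [hk] at hn
    obtain rfl : n = 0 := Nat.le_zero.mp hn
    have := CuspFormClass.qExpansion_coeff_zero (k := k) (h := 1) f one_pos
      (CongruenceSubgroup.one_mem_strictPeriods_Gamma0 N)
    exact this
  ext z
  have := DFunLike.congr_fun hg z
  exact this

theorem result (f : CuspForm (CongruenceSubgroup.Gamma0 1) 2) : f = 0 := by
  apply cuspForm_Gamma0_eq_zero_of_bound 1
  have h1 : (CongruenceSubgroup.Gamma0 1).index = 1 := by
    have : CongruenceSubgroup.Gamma0 1 = ⊤ := by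
      ext x
      simp only [CongruenceSubgroup.Gamma0_mem, Subgroup.mem_top, iff_true]
      exact Subsingleton.elim _ _
    rw [this]; simp
  rw [h1]
  norm_num

end Fermat.Agent.S08
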