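-- Statement S13: a reducible mod-p Frey representation has a Galois-stable cofixed line.
import Fermat.Statements.S13
import Fermat.Agent.S13.FreyGlue
import Fermat.Agent.S13.RGlue
import Fermat.Agent.S13.CU.FreyInputs
import Fermat.Agent.S13.Local.FreyP
import Fermat.Agent.S13.Local.FreyTwoCore
import Fermat.Agent.S13.Local.FreyTwoArith
import Fermat.Agent.S13.Local.NodalInertia

set_option autoImplicit false
open WeierstrassCurve WeierstrassCurve.Affine WeierstrassCurve.Affine.Point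
open CuspForm ModularFormClass UpperHalfPlane
open FreyPackage

namespace Fermat.Agent.S13

open Fermat.Agent.S13.Global Fermat.Agent.S13.Local

local notation "Qbar" => AlgebraicClosure ℚ
local notation "GQ" => (AlgebraicClosure ℚ ≃ₐ[ℚ] AlgebraicClosure ℚ)

/-- `p` is a unit at every place over `2`. -/
theorem valuation_p_two (P : FreyPackage) {A : ValuationSubring Qbar} (hA : A.LiesOverPrime 2) :
    A.valuation ((P.p : ℕ) : Qbar) = 1 := by
  have hodd : ¬ (2 : ℤ) ∣ (P.p : ℤ) := by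
    have h := P.hp_odd
    intro hd
    have h2 : 2 ∣ P.p := by exact_mod_cast hd
    exact (Nat.not_even_iff_odd.mpr h) (even_iff_two_dvd.mpr h2)
  have := FreyTwoArith.v_odd (K := Qbar) hA hodd
  exact_mod_cast this

/-- No `p`-torsion in the kernel of reduction at a place over `2`. -/
theorem k1_tors_two (P : FreyPackage) {A : ValuationSubring Qbar} (hA : A.LiesOverPrime 2)
    (Q : (P.freyCurve⁄Qbar).Point)
    (hK : (NodalInst.nodalData (FreyTwoArith.isNodalForm (K := Qbar) P)).K1 A.valuation Q)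
    (hQ : Q ≠ 0) (h0 : P.p • Q = 0) : False :=
  hQ (NodalInertia.k1_tors _ A.valuation (FreyTwoArith.hyp P hA) (valuation_p_two P hA) Q hK h0)

/-- **(L-2)** for the Frey curve: inertia at `2` fixes every Galois-stable line pointwise and
acts trivially on the quotient. -/
theorem hL2 (P : FreyPackage) :
    ∀ N : Submodule (ZMod P.p) (Tors P.freyCurve P.p), IsGaloisStable ℚ N → N ≠ ⊥ → N ≠ ⊤ →
      ∀ A : ValuationSubring Qbar, A.LiesOverPrime 2 →
        A.inertiaSubgroupIn ℚ ≤ fixer N ⊓ cofixer N := by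
  intro N hN hbot htop A hA
  have : Fact P.p.Prime := ⟨P.pp⟩
  have hW := FreyTwoArith.isNodalForm (K := Qbar) P
  have H := FreyTwoArith.hyp (K := Qbar) P hA
  obtain ⟨V₀, hC, hK⟩ := FreyTwoCore.h2_of (W' := P.freyCurve) hW (p := P.p) H
    (fun σ hσ Q hQ => NodalInertia.sub_mem_K1 _ A H (FreyTwoCore.inertiaAct hW hσ) hQ)
    (k1_tors_two P hA)
  intro σ hσ
  exact LineAlgebra.mem_fixer_inf_cofixer_of_unipotent (CU.FreyInputs.natCard_frey P) N hN hbot
    htop σ V₀ (hC σ hσ) (hK σ hσ)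

/-- **(R)** for the Frey curve: no Galois-stable line is fixed pointwise by the whole Galois
group. -/
theorem hR (P : FreyPackage) :
    ∀ N : Submodule (ZMod P.p) (Tors P.freyCurve P.p), IsGaloisStable ℚ N → N ≠ ⊥ → N ≠ ⊤ →
      ¬ ∀ σ : GQ, ∀ x ∈ N, σ • x = x := by
  intro N _ hbot _
  have : Fact P.p.Prime := ⟨P.pp⟩
  have : Fact (Nat.Prime 2) := ⟨Nat.prime_two⟩
  have hA : (padicPlace 2).LiesOverPrime 2 :=
    Fermat.Agent.CFT.LocalBridge.liesOverPrime_padicPlace 2
  have hW := FreyTwoArith.isNodalForm (K := Qbar) P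
  have H := FreyTwoArith.hyp (K := Qbar) P hA
  refine RGlue.hR_of_noRat (W := P.freyCurve) (p := P.p) ?_ N hbot
  obtain ⟨k, -, hk1, hk2⟩ := FreyTwoArith.exists_v_a4 (K := Qbar) P hA
  exact FreyTwoCore.noRat_of (W' := P.freyCurve) hW P.pp P.hp5 H (FreyTwoArith.v_two_lt_one hA)
    ⟨k, hk1, hk2⟩
    (fun r hr => FreyTwoArith.exists_v_algebraMap hA hr)
    (fun r hle => FreyTwoArith.v_algebraMap_lt_or_sub_one_lt hA hle)
    (k1_tors_two P hA)
    (fun Q Q' hQ hQ' hX _ hx hy => NodalRed.sub_mem_K1 _ _ H hQ hQ' hX hx hy)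
    (fun Q hQ n => NodalRed.e0_nsmul _ _ H hQ n)

theorem result (P : FreyPackage) (hred : ¬ GaloisRepIsIrreducible (K := AlgebraicClosure ℚ) ℚ P.freyCurve P.p) : HasGaloisStableCofixedLine (K := AlgebraicClosure ℚ) ℚ P.freyCurve P.p :=
  FreyGlue.result_of P (CU.FreyInputs.natCard_frey P) (hL2 P)
    (Local.FreyP.hLp P (CU.FreyInputs.natCard_frey P) (CU.FreyInputs.valSum_frey P)) (hR P) hred

end Fermat.Agent.S13
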