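import Fermat.Statements.S14
import Fermat.Agent.S14.Field
import Fermat.Agent.S14.FieldDict
import Fermat.Agent.S14.Main
import Fermat.Agent.S14.PPrimary

/-!
# S14: `ExtVanishingCts p` for every prime `p ≥ 3`

Assembly: `S14/Field.result_of_field` (S14a: an admissible extension gives an `ω⁻¹`-field `L`),
`S14/FieldDict.exists_omegaInvData` (number-field package of `L`), `S14/Main.false_of_pPrimary`
(no such `L`, given a `p`-primary class module) and `S14/PPrimary.hasPPrimaryClassModule`
(global class field theory: the `p`-primary class module of `L/ℚ`).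
-/

set_option autoImplicit false
open ExtCitation

namespace Fermat.Agent.S14

theorem result {p : ℕ} [Fact p.Prime] (h3 : 3 ≤ p) :
    ExtCitation.ExtVanishingCts p := by
  have hp2 : p ≠ 2 := by omega
  refine Fermat.Agent.S14.Field.result_of_field h3 ?_
  rintro ⟨L, hL⟩
  obtain ⟨K, L', _, _, _, _, _, _, hD⟩ := Fermat.Agent.S14.FieldDict.exists_omegaInvData hL
  have hg1 := hD.galois
  have hg2 := hD.galoisQ
  have hK : IsGalois ℚ K := IsCyclotomicExtension.isGalois {p} ℚ K
  exact Fermat.Agent.S14.Main.false_of_pPrimary K L' hp2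
    (Fermat.Agent.S14.PPrimary.hasPPrimaryClassModule p hp2 L') hD.finrank_eq hD.unram hD.split
    (fun σ h n hn => hD.conj σ (AlgEquiv.restrictNormalHom K σ)
      (fun x => (AlgEquiv.restrictNormal_commutes σ K x).symm) h n hn)

end Fermat.Agent.S14
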