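-- Statement S12: for p ≥ 17 the mod-p representation of the Frey curve has no Galois-stable
-- cofixed line.  Proof: Mazur's isogeny tower over the Frey curve (Fermat/Agent/S12/): a cofixed
-- line gives a tower of semistable quotient curves, each with a rational point of order p whose
-- quotient line is cyclotomic; the Ext vanishing (S14) splits the p-torsion at every level, the
-- statement S15 keeps the rational point off the zero components, and the rational points of
-- p-power order of the levels grow beyond the bound given by one prime of good reduction.
import Fermat.Statements.S12
import Fermat.Agent.S12.Level.Plug
import Fermat.Agent.S15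

set_option autoImplicit false
open WeierstrassCurve WeierstrassCurve.Affine WeierstrassCurve.Affine.Point
open CuspForm ModularFormClass UpperHalfPlane
open FreyPackage

namespace Fermat.Agent.S12

theorem result (P : FreyPackage) (hp : 17 ≤ P.p) : ¬ HasGaloisStableCofixedLine (K := AlgebraicClosure ℚ) ℚ P.freyCurve P.p :=
  Fermat.Agent.S12.Level.Plug.no_cofixed_of_S15 (@Fermat.Agent.S15.result) P hp

end Fermat.Agent.S12
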