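-- Statement S09 (Mazur for the Frey curve): the mod-p representation of the Frey curve is
-- irreducible.  Proof: a reducible representation has a Galois-stable cofixed line (S13), which is
-- excluded for p ∈ {5, 7, 13} (S10), p = 11 (S11) and p ≥ 17 (S12).
import Fermat.Statements.S09
import Fermat.Agent.S10
import Fermat.Agent.S11
import Fermat.Agent.S12
import Fermat.Agent.S13

set_option autoImplicit false
open WeierstrassCurve WeierstrassCurve.Affine WeierstrassCurve.Affine.Point
open CuspForm ModularFormClass UpperHalfPlane
open FreyPackage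

namespace Fermat.Agent.S09

theorem result (P : FreyPackage) : GaloisRepIsIrreducible (K := AlgebraicClosure ℚ) ℚ P.freyCurve P.p := by
  by_contra hred
  have hcl := Fermat.Agent.S13.result P hred
  by_cases h17 : 17 ≤ P.p
  · exact Fermat.Agent.S12.result P h17 hcl
  · have hp5 := P.hp5
    have hpp := P.pp
    have hcases : P.p = 5 ∨ P.p = 7 ∨ P.p = 11 ∨ P.p = 13 := by
      obtain ⟨q, hq⟩ : ∃ q : ℕ, q = P.p := ⟨_, rfl⟩
      rw [← hq] at h17 hp5 hpp ⊢
      have hlt : q < 17 := by omega
      interval_cases q <;> first | omega | (exfalso; revert hpp; decide)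
    rcases hcases with h | h | h | h
    · exact Fermat.Agent.S10.result P (Or.inl h) hcl
    · exact Fermat.Agent.S10.result P (Or.inr (Or.inl h)) hcl
    · exact Fermat.Agent.S11.result P h hcl
    · exact Fermat.Agent.S10.result P (Or.inr (Or.inr h)) hcl

end Fermat.Agent.S09
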