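-- Statement S17: Mordell-Weil for J_0(N)(Q), N prime >= 5 (PROJECT H).
-- Frozen statement: ModularCurve.JZero.FermatFrozen.S17 (Fermat/Statements/S17.lean).
-- Proof: genus split (S17/GenusZero) + 2-divisibility (S17/Div) + weak Mordell-Weil (S17/WeakMW,
-- S17/FinExp) + the height package of Parts A and B (S17/Pos/Main) + descent (S17/Final).
import Fermat.Statements.S17
import Fermat.Agent.S17.Final.Assemble
import Fermat.Agent.S17.Pos.Main

set_option autoImplicit false
open ModularCurve AlgebraicCurve
open ModularCurve ModularCurve.JZero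

namespace Fermat.Agent.S17

theorem result (N : ℕ) [NeZero N] (hN : N.Prime) (hN5 : 5 ≤ N) :
    AddGroup.FG ↥(FixedPoints.addSubgroup ((AlgebraicClosure ℚ) ≃ₐ[ℚ] (AlgebraicClosure ℚ)) (JZero N)) :=
  Fermat.Agent.S17.Final.Assemble.fg_of_heightPackage N
    (fun _ hg hR => Fermat.Agent.S17.Pos.Main.heightPackage N hg hR)

end Fermat.Agent.S17
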