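import Fermat.Statements.S30
import Fermat.Agent.S30.Final.H1
import Fermat.Agent.S30.Final.S30OfDict
import Fermat.Agent.S30.Descent.PhiDictThm
import Fermat.Agent.S30.Hecke.StarHecke
import Fermat.Agent.S30.Hecke.CosetStarSys

set_option autoImplicit false
open Polynomial
open CuspForm

namespace Fermat.Agent.S30

open CongruenceSubgroup ModularCurve
open Fermat.Agent.S30.Spec Fermat.Agent.S30.Final.PhiMap Fermat.Agent.S30.Final.TateCompare
open Fermat.Agent.S30.Final.Chain Fermat.Agent.S30.Padic.TateChar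
open Fermat.Agent.S30.Hecke.CosetStar Fermat.Agent.S30.Hecke.CosetStarSys
open Fermat.Agent.S30.Hecke.StarHecke

/-- the Fricke twist on the character group `X = charGroup N` (multiplicative form) -/
noncomputable def frickeCharMul (N : ℕ) [NeZero N] : ↥(charGroup N) ≃* ↥(charGroup N) where
  toFun ψ := ⟨(cWMul N ℂˣ).symm ψ, (cWMul_symm_mem_charGroup_iff _).mpr ψ.2⟩
  invFun ψ := ⟨cWMul N ℂˣ ψ, (cWMul_mem_charGroup_iff _).mpr ψ.2⟩
  left_inv ψ := Subtype.ext ((cWMul N ℂˣ).apply_symm_apply _)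
  right_inv ψ := Subtype.ext ((cWMul N ℂˣ).symm_apply_apply _)
  map_mul' ψ ψ' := Subtype.ext (map_mul (cWMul N ℂˣ).symm _ _)

/-- the Fricke twist on the character group, additive form -/
noncomputable def frickeChar (N : ℕ) [NeZero N] :
    Additive ↥(charGroup N) ≃+ Additive ↥(charGroup N) :=
  MulEquiv.toAdditive (frickeCharMul N)

theorem coe_frickeChar (N : ℕ) [NeZero N] (z : Additive ↥(charGroup N)) :
    ((Additive.toMul (frickeChar N z) : ↥(charGroup N)) : Gamma0 N →* ℂˣ) =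
      (cWMul N ℂˣ).symm ((Additive.toMul z : ↥(charGroup N)) : Gamma0 N →* ℂˣ) := rfl

/-- the twisted dictionary intertwines `heckeOperatorBar N r` with the standard `τ_r` -/
theorem frickeChar_hecke (N : ℕ) [NeZero N] {ι : AlgebraicClosure ℚ →+* ℂ} (h : PhiDict N ι)
    (r : Nat.Primes) (x : AddCommGroup.torsion (JZero N)) :
    frickeChar N (phiC h (torsionMap (heckeEnd N r) x)) =
      tauChar N r r.2 (frickeChar N (phiC h x)) := by
  apply (Additive.toMul (α := ↥(charGroup N))).injective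
  apply Subtype.ext
  have h1 : phiFun h (torsionMap (heckeEnd N r) x) =
      cWMul N ℂˣ (tauMul N r r.2 ((cWMul N ℂˣ).symm (phiFun h x))) :=
    phiFun_eq h (x := torsionMap (heckeEnd N r) x)
      (isPhiOf_hecke_twisted ι r (phiFun_spec h x))
  have h2 := coe_tauChar N r r.2 (Additive.toMul (frickeChar N (phiC h x)))
  rw [ofMul_toMul] at h2
  rw [h2, coe_frickeChar, coe_frickeChar, coe_phiC, coe_phiC, h1, MulEquiv.symm_apply_apply]

theorem result :
    ∀ (p : ℕ) [Fact p.Prime] (N : ℕ) [NeZero N] (S : Finset ℕ)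
      (_hpS : p ∈ S) (_hNS : ∀ q : ℕ, q.Prime → q ∣ N → q ∈ S)
      (𝒪' : Type) [CommRing 𝒪'] [IsDomain 𝒪'] [IsDiscreteValuationRing 𝒪']
      [IsAdicComplete (IsLocalRing.maximalIdeal 𝒪') 𝒪'] [Finite (IsLocalRing.ResidueField 𝒪')]
      [CharZero 𝒪'] (_hp𝒪' : (p : 𝒪') ∈ IsLocalRing.maximalIdeal 𝒪')
      (χ : CuspForm.heckeAlgebra N 2 (↑S : Set ℕ) →+* 𝒪'),
      ∃ (𝒪'' : Type) (_ : CommRing 𝒪'') (_ : IsDomain 𝒪'') (_ : IsDiscreteValuationRing 𝒪'')
        (_ : IsAdicComplete (IsLocalRing.maximalIdeal 𝒪'') 𝒪'')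
        (_ : Finite (IsLocalRing.ResidueField 𝒪'')) (_ : CharZero 𝒪'')
        (_ : Algebra 𝒪' 𝒪'') (_ : Module.Finite 𝒪' 𝒪'') (_ : IsLocalHom (algebraMap 𝒪' 𝒪'')),
      Function.Injective (algebraMap 𝒪' 𝒪'') ∧
      ∃ ρ : GaloisRepAdic 𝒪'',
        (∀ (ℓ : ℕ) (hℓ : ℓ.Prime) (hℓN : ¬ ℓ ∣ N) (hℓS : ℓ ∉ (↑S : Set ℕ)),
          ∀ A : ValuationSubring (AlgebraicClosure ℚ), A.LiesOverPrime ℓ →
            ∀ σ : AlgebraicClosure ℚ ≃ₐ[ℚ] AlgebraicClosure ℚ, A.IsFrobeniusAt σ ℓ →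
              LinearMap.charpoly (ρ.ρ σ) =
                X ^ 2 - C (algebraMap 𝒪' 𝒪'' (χ (CuspForm.heckeAlgebra.T hℓ hℓN hℓS))) * X
                  + C ((ℓ : 𝒪''))) ∧
        (∀ q : ℕ, q.Prime → ¬ q ∣ N → q ≠ p → ρ.IsUnramifiedAt q) := by
  intro p _ N _ S hpS hNS 𝒪' _ _ _ _ _ _ hp𝒪' χ
  obtain ⟨ι⟩ := Fermat.Agent.S30.Descent.PhiDictThm.nonempty_ringHom
  have h : PhiDict N ι := Fermat.Agent.S30.Descent.PhiDictThm.phiDict N ι
  exact Fermat.Agent.S30.Final.S30OfDict.s30_of_dict p N S hpS hNS 𝒪' hp𝒪' χ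
    (Fermat.Agent.S30.Final.H1.hasReductionAll N p) h (frickeChar N)
    (frickeChar_hecke N h)

end Fermat.Agent.S30
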