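import Fermat.Statements.S22
import Fermat.Agent.S22.H11.Algebra
import Fermat.Agent.S22.H11.Trivial
import Fermat.Agent.S22.H11.HeckeInst
import Fermat.Agent.S22.H11.Separation

set_option autoImplicit false
open CuspForm
open Fermat.Agent.S22.H11

namespace Fermat.Agent.S22

theorem result (N : ℕ) [NeZero N] (k : ℤ) (S : Set ℕ) :
    Module.Finite ℤ (CuspForm.heckeAlgebra N k S) := by
  rcases le_or_gt k 1 with hk | hk
  · -- the space of cusp forms is trivial
    have hV : Subsingleton (CuspForm (CongruenceSubgroup.Gamma0 N : Subgroup (GL (Fin 2) ℝ)) k) :=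
      ⟨fun f g => by
        rw [cuspForm_eq_zero_of_weight_le_one N hk f, cuspForm_eq_zero_of_weight_le_one N hk g]⟩
    have hE : Subsingleton (Module.End ℂ
        (CuspForm (CongruenceSubgroup.Gamma0 N : Subgroup (GL (Fin 2) ℝ)) k)) :=
      ⟨fun a b => LinearMap.ext fun v => Subsingleton.elim _ _⟩
    have hA : Subsingleton (CuspForm.heckeAlgebra N k S) :=
      ⟨fun a b => Subtype.ext (Subsingleton.elim _ _)⟩
    infer_instance
  · obtain ⟨n, rfl⟩ : ∃ n : ℕ, k = (n : ℤ) + 2 := by
      refine ⟨(k - 2).toNat, ?_⟩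
      rw [Int.toNat_of_nonneg (by linarith)]
      ring
    refine finite_adjoin_of_dual_lattice (CuspForm.heckeGenerators N ((n : ℤ) + 2) S)
      (perLattice N n) perLattice_fg perLattice_separates ?_
    rintro T (⟨ℓ, hℓ, hℓN, -, rfl⟩ | ⟨q, hqN, hq, -, rfl⟩)
    · exact heckeT_stable hℓ hℓN
    · exact heckeU_stable hq hqN

end Fermat.Agent.S22
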