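import Fermat.Statements.S15
import Fermat.Agent.S15.A.StarFinal
import Fermat.Agent.S15.Struct.FinalStar
import Fermat.Agent.S15.Struct.TPConstTop

set_option autoImplicit false
open WeierstrassCurve WeierstrassCurve.Affine
open WeierstrassCurve

namespace Fermat.Agent.S15

theorem result
    {p : ℕ} (hp : p.Prime) (hp' : p ∉ ({2, 3, 5, 7, 13} : Finset ℕ))
    (W : WeierstrassCurve ℤ) (hΔ : W.Δ ≠ 0)
    (Q : ((W.map (Int.castRingHom ℚ))⁄(AlgebraicClosure ℚ)).Point)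
    (hQfix : ∀ σ : AlgebraicClosure ℚ ≃ₐ[ℚ] AlgebraicClosure ℚ, σ • Q = Q)
    (hQord : addOrderOf Q = p)
    (h2Δ : (2 : ℤ) ∣ W.Δ) (h2c₄ : ¬ (2 : ℤ) ∣ W.c₄)
    (h2 : ∀ A : ValuationSubring (AlgebraicClosure ℚ), A.LiesOverPrime 2 → ¬ W.InZeroComponentAt A Q)
    (h3Δ : (3 : ℤ) ∣ W.Δ) (h3c₄ : ¬ (3 : ℤ) ∣ W.c₄)
    (h3 : ∀ A : ValuationSubring (AlgebraicClosure ℚ), A.LiesOverPrime 3 → ¬ W.InZeroComponentAt A Q)
    {ℓ : ℕ} (hℓ : ℓ.Prime) (hℓp : ℓ ≠ p) (hℓΔ : (ℓ : ℤ) ∣ W.Δ) (hℓc₄ : ¬ (ℓ : ℤ) ∣ W.c₄)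
    (A : ValuationSubring (AlgebraicClosure ℚ)) (hA : A.LiesOverPrime ℓ) :
    ¬ W.InZeroComponentAt A Q := by
  have : NeZero p := ⟨hp.ne_zero⟩
  have : Fact p.Prime := ⟨hp⟩
  have hp5 : 5 ≤ p := by
    have h2 : p ≠ 2 := fun h => hp' (by simp [h])
    have h3 : p ≠ 3 := fun h => hp' (by simp [h])
    have h4 : p ≠ 4 := fun h => absurd (h ▸ hp) (by decide)
    have := hp.two_le
    omega
  refine Fermat.Agent.S15.A.StarFinal.mazur_of_inputs hp hp' W hΔ Q hQfix hQord h2Δ h2c₄ h2 h3Δ h3c₄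
    h3 hℓ hℓp hℓΔ hℓc₄ A hA (fun P _ hPd => ?_)
  have hNP : p ≠ P := by
    intro h
    have hle : P ≤ p - 1 := Nat.le_of_dvd (by omega) hPd
    omega
  exact ⟨Fermat.Agent.S15.Struct.FinalStar.hinv_Gk_star p P hp5 hNP,
    Fermat.Agent.S15.Struct.FinalGk.hhalf_Gk_star p P hNP,
    Fermat.Agent.S15.Struct.TPConstTop.hCP_Gk hNP (Set.finite_singleton p) rfl⟩

end Fermat.Agent.S15
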