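-- Statement S16 (row 15): Mazur's Eisenstein index, `#(𝕋 / I𝕋) = (p - 1) / gcd (p - 1, 12)`.
-- Final assembly of PROJECT E (all ingredients live under Fermat/Agent/S16/**):
--   * `Reduction.result_of`            : frozen statement ⇐ (LB) + (UB)            (E-RED)
--   * `MasterIdentity.hUB_of_special`  : (UB) ⇐ three special cases                (E-UB-gen)
--   * `UB2.Main.ub2`, `UBGen.ubgen`, and `ub3_final` below                         (E-UB2 / E-UB3 / E-WT)
--   * `hLB_final` below: theta series of a quaternary lattice of level `p`        (E-LB)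
import Fermat.Statements.S16
import Fermat.Agent.S16.Reduction
import Fermat.Agent.S16.UBGlue
import Fermat.Agent.S16.UBGen
import Fermat.Agent.S16.UB2.Main
import Fermat.Agent.S16.UB3.Assembly
import Fermat.Agent.S16.UB3.Form6EC
import Fermat.Agent.S16.LB.LBTheta
import Fermat.Agent.S16.LB.ThetaOf
import Fermat.Agent.S16.LB.TriGram

set_option autoImplicit false
open ModularCurve CuspForm
open ModularCurve

namespace Fermat.Agent.S16

open Fermat.Agent.S16.Reduction Fermat.Agent.S16.LB in
/-- (LB): a cusp form with integral coefficients congruent to the Eisenstein series modulo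
the Eisenstein numerator, from the theta series of a quaternary lattice of level `p`. -/
theorem hLB_final (p : ℕ) [Fact p.Prime] :
    EisensteinCongruence p (ModularCurve.eisensteinNumerator p) :=
  LBTheta.hLB_of_theta p fun hp2 => by
    have hp : p.Prime := Fact.out
    obtain ⟨m, r, s, hm, h, hq⟩ := DiscForm.exists_params_unit hp hp2
    have B := TriGram.bridge_gram p hp.ne_zero m r s h hm
    exact ThetaOf.exists_thetaQ_of hm h hq
      (B.thetaData (QuatLattice.gram_isSymm _ _ _ _) (QuatLattice.even_gram_diag _ _ _ _))
      B.hPG B.hsum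

open Fermat.Agent.S16.Reduction in
/-- (UB), special case `l = 3`, `p ≡ 2 (mod 3)`. -/
theorem ub3_final (p : ℕ) [Fact p.Prime] : p % 3 = 2 → ¬ EisensteinCongruence p 3 := by
  intro hp2 h
  have hp3 : p ≠ 3 := by
    rintro rfl
    norm_num at hp2
  obtain ⟨G, rootZ, psiZ, h1, h2, h3⟩ := UB3.Form6EC.exists_form6 p hp2 h
  exact UB3.Assembly.false_of_form p hp3 G rootZ psiZ h1 h2 h3

theorem result
    (p : ℕ) [Fact p.Prime] :
    Nat.card (↥(heckeLatticeAlgebra p ∅) ⧸
        Ideal.map ((latticeRestrictHom p ∅).toRingHom.comp (heckeEvalForms p 2))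
          (eisensteinIdeal p)) =
      eisensteinNumerator p :=
  Reduction.result_of p (hLB_final p)
    (MasterIdentity.hUB_of_special p (UB2.Main.ub2 p) (ub3_final p) (UBGen.ubgen p))

end Fermat.Agent.S16
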