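-- Statement S20 (PROJECT G): dim S₂(Γ₀(N)) = genus formula.
import Fermat.Statements.S20
import Fermat.Agent.S20.Final
import Fermat.Agent.S20.RankFinal
import Fermat.Agent.S20.DetNeZero
import Fermat.Agent.S20.CuspDFTInst
import Fermat.Agent.S20.CuspAnalytic
import Fermat.Agent.S20.CuspFinal
import Fermat.Agent.S20.Duality
import Fermat.Agent.S20.EigenInst
import Fermat.Agent.S20.CountFinal

set_option autoImplicit false
open CuspForm

namespace Fermat.Agent.S20

/-- The limit data at `i∞` of the matrix of translates of a homogeneous basis. -/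
noncomputable def limitData {N : ℕ} [NeZero N] (g : Gens N) :
    CuspFinal.LimitData g (CuspDFTInst.dftData N) where
  A := CuspAnalytic.Am (CuspDFTInst.dftData N) g
  hA := CuspAnalytic.Am_apply (CuspDFTInst.dftData N) g
  A0 := CuspAnalytic.A0 (CuspDFTInst.dftData N) g
  tendsto := CuspAnalytic.tendsto_Am_apply (CuspDFTInst.dftData N) g
  det_ne := CuspAnalytic.det_A0_ne_zero (CuspDFTInst.dftData N) g

theorem result (N : ℕ) [NeZero N] :
    (Module.finrank ℂ (CuspForm (CongruenceSubgroup.Gamma0 N) 2) : ℚ) = ModularCurve.genusFormula N := by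
  obtain ⟨g⟩ := RankFinal.nonempty_gens N
  have hdet : ∀ τ, (g.Φ τ).det ≠ 0 := DetNeZero.det_ne_zero g
  have hcusp := CuspFinal.tendsto_delta_inv_of g hdet (limitData g)
  have hκ : ∀ j, g.κ j ≤ 10 := Duality.kappa_le_ten g hdet hcusp
  exact result_of g hκ (EigenInst.κ_even g) (EigenInst.m_zero g)
    (CuspFinal.sum_κ_of g hdet (limitData g))
    (EigenInst.hS g hκ (hdet _)) (EigenInst.hR0 g hκ (hdet _)) (EigenInst.hR1 g hκ (hdet _))
    (EigenInst.hR2 g hκ (hdet _)) (Duality.finrank_cusp g hdet hcusp)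
    (CountFinal.mu_eq N) (CountFinal.fixS_eq N) (CountFinal.fixR_eq N) (CountFinal.orbT_eq N)

end Fermat.Agent.S20
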