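-- S21 (Eichler–Shimura): assembly of project ES.
--   ES1 (helper6)  S21/Primitive, ES2 (helper5) S21/Parabolic, ES3 (helper10/helper29) S21/RealPeriods + S21/ConjForm,
--   ES4/ES6 (helper25) S21/ParabolicDim + S21/Assembly, ES5 = S20 (project G, dimension formula).
import Fermat.Statements.S21
import Fermat.Agent.S21.Assembly
import Fermat.Agent.S21.ConjForm
import Fermat.Agent.S20

set_option autoImplicit false
open ModularCurve

namespace Fermat.Agent.S21

theorem result (N : ℕ) [NeZero N] :
    Function.Injective (ModularCurve.periodHomPair N)
      ∧ LinearMap.range (ModularCurve.periodHomPair N)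
          = ModularCurve.Period.parabolicHoms ℂ (CongruenceSubgroup.Gamma0 N) ℂ :=
  Assembly.result_of N (ConjForm.hinj N) (Fermat.Agent.S20.result N)

end Fermat.Agent.S21
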