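-- Statement S23 (row 22): `CuspForm.HasIntegralStructure N 2`.
-- Proof: Galois descent of `S_k(Γ₀(N))` along a primitive element `θ = E₁₂ ∣ diag(N,1)` of weight 12
-- (see `Fermat/Agent/S23/Assembly.lean` for the chain and `Fermat/Agent/S23/ThetaE12.lean` for `θ`).
import Fermat.Statements.S23
import Fermat.Agent.S23.Assembly
import Fermat.Agent.S23.ThetaE12

set_option autoImplicit false
open CuspForm

namespace Fermat.Agent.S23

theorem result (N : ℕ) [NeZero N] : CuspForm.HasIntegralStructure N 2 :=
  Assembly.hasIntegralStructure_of_theta (ThetaE12.theta N)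
    (ThetaE12.theta_qExpansion_rat N) (fun γ hγ => ThetaE12.theta_slash_ne N γ hγ) (by norm_num)

end Fermat.Agent.S23
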