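import Fermat.Statements.S24
import Fermat.Agent.S24.Final
import Fermat.Agent.S24.Degree
import Fermat.Agent.S24.OrbitsPtAlt
import Fermat.Agent.S24.OrbitsCuspAlt

set_option autoImplicit false
open ModularCurve

namespace Fermat.Agent.S24

theorem result (N : ℕ) [NeZero N]
    [AlgebraicCurve.HasCanonicalDivisor (K := AlgebraicClosure ℚ) (F := ↥(ModularCurve.modularFunctionFieldBar N))] :
    (AlgebraicCurve.genus (AlgebraicClosure ℚ) ↥(ModularCurve.modularFunctionFieldBar N) : ℚ)
      = ModularCurve.genusFormula N :=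
  Final.result_of N (Degree.isFF N) (Degree.finrank_eq_card N) (OrbitsPtAlt.card_generic N)
    (OrbitsPtAlt.card_1728 N) (OrbitsPtAlt.card_zero N) (OrbitsCuspAlt.card_poles N)

end Fermat.Agent.S24
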