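import Fermat.Statements.S28
import Fermat.Agent.S28.Top
import Fermat.Agent.S28.ChartKernel
import Fermat.Agent.S28.IgusaDegree
import Fermat.Agent.S28.HintF

/-!
# S28 (Igusa): the special fibre of the Igusa model of `X₀(N)` is integral (PROJECT F)

Assembly (architect helper17), all pieces under `Fermat/Agent/S28/`:

* `SchemeGlue` + `Top` : the pullback is covered by the three affine charts
  `Spec (chartAlg N ℓ S ⊗ K)`, so it is integral as soon as each chart has a reduction map to
  `𝔽_ℓ((q))` with kernel `ℓ · chartAlg N ℓ S` (`Defs.ChartRed`, `RedZl`, `TensorDomain`);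
* `ChartKernel` (`GaussVal`, `Saturation`, `SaturationLift`, `ChartBase`, `ChartSat`, `ChartRedOf`,
  `DegreeQ`) : the Gauss valuation of `F = ℚ(j(q^d) : d ∣ N)` and the dimension count reduce
  `Defs.ChartRed` to Igusa's degree bound over `𝔽_ℓ` and the integrality of `j(q^d)` over `ℤ[j]`;
* `IgusaDegree` (`Step/*`, `StepCoprime*`, `ModPoly*`, `ModEqForm`, `NormForm`, `PrimeCase*`,
  `IgusaCore`, ...) : `ψ(N) ≤ [𝔽_ℓ(J(q^d) : d ∣ N) : 𝔽_ℓ(J)]`;
* `HintF` : `j(q^d)` is integral over `ℤ[j]`.
-/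

set_option autoImplicit false
open AlgebraicGeometry CategoryTheory CategoryTheory.Limits ModularCurve ModularCurve.IgusaScheme
noncomputable section
set_option autoImplicit false
open ModularCurve ModularCurve.IgusaScheme

namespace Fermat.Agent.S28

set_option maxHeartbeats 4000000 in
set_option synthInstance.maxHeartbeats 400000 in
theorem result
    (N : ℕ) [NeZero N] (ℓ : ℕ) [Fact ℓ.Prime] (hℓN : ¬ ℓ ∣ N)
    (K : Type) [Field K] [CharP K ℓ] [Algebra ↥(GaloisRep.ratLocalizedAt ℓ) K] :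
    IsIntegral ↑(pullback (igusaTo N ℓ)
      (Spec.map (CommRingCat.ofHom (algebraMap ↥(GaloisRep.ratLocalizedAt ℓ) K)))) := by
  obtain ⟨h1, h2, h3⟩ := Fermat.Agent.S28.ChartKernel.chartRed_all N ℓ
    (fun d _ hd => Fermat.Agent.S28.HintF.isIntegral_jdFull N d hd)
    (Fermat.Agent.S28.IgusaDegree.igusaBound ℓ N hℓN)
  exact Fermat.Agent.S28.Top.result_of_chartRed N ℓ h1 h2 h3 K

end Fermat.Agent.S28
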