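import Fermat.Statements.S31
import Fermat.Agent.S30
import Fermat.Agent.S31.Assembly
import Fermat.Agent.S31.HeckeModuleFinal

/-!
# S31: the representation of a Hecke-Galois datum is unramified outside `S`

`Λ := T_p J₀(N)` is a faithful Hecke-Galois module (`S31/HeckeModuleFinal`, from the inputs of the
S30 chain: project I reduction data, the dictionary `Φ` and its Hecke equivariance, the
Eichler-Shimura isomorphism); the abstract core (`S31/Core`, `S31/Assembly`) compares `tr ρ` with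
the Hecke-valued trace carried by `Λ`.
-/

set_option autoImplicit false
variable {p : ℕ} {N : ℕ} [NeZero N] {S : Finset ℕ}
  {𝒪 : Type} [CommRing 𝒪] [IsDomain 𝒪] [IsDiscreteValuationRing 𝒪]
  [IsAdicComplete (IsLocalRing.maximalIdeal 𝒪) 𝒪]
  {θ : CuspForm.heckeAlgebra N 2 (↑S : Set ℕ) →+* IsLocalRing.ResidueField 𝒪}
  {T : Type} [CommRing T] [IsLocalRing T] [IsNoetherianRing T]
  [IsAdicComplete (IsLocalRing.maximalIdeal T) T] [Algebra 𝒪 T] [IsLocalHom (algebraMap 𝒪 T)]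
  [Module.Finite 𝒪 T] [Module.Free 𝒪 T]
open CuspForm CuspForm.HeckeGaloisRepDatum

namespace Fermat.Agent.S31

theorem result (hp : p.Prime)
    (hp𝒪 : (p : 𝒪) ∈ IsLocalRing.maximalIdeal 𝒪) (hpS : p ∈ S)
    (hNS : ∀ q : ℕ, q.Prime → q ∣ N → q ∈ S)
    (H : CuspForm.HeckeGaloisRepDatum N (↑S : Set ℕ) 𝒪 θ T)
    (q : ℕ) (hq : q.Prime) (hqS : q ∉ S) :
    H.ρ.IsUnramifiedAt q := by
  haveI : Fact p.Prime := ⟨hp⟩
  obtain ⟨ι⟩ := Fermat.Agent.S30.Descent.PhiDictThm.nonempty_ringHom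
  have h : Fermat.Agent.S30.Spec.PhiDict N ι := Fermat.Agent.S30.Descent.PhiDictThm.phiDict N ι
  obtain ⟨ep, H3⟩ := Fermat.Agent.S30.Final.TateCompare.h3_of_phiDict (h := h) p
    (Fermat.Agent.S30.frickeChar N)
    (fun r => Fermat.Agent.S30.Padic.TateChar.tauChar N r r.2)
    (Fermat.Agent.S30.frickeChar_hecke N h)
    (fun r => Fermat.Agent.S30.Hecke.Parabolic.tauPar ℤ ℤ N r r.2)
    (Fermat.Agent.S30.Padic.TateChar.tateLattice N p)
    (fun r x => Fermat.Agent.S30.Padic.TateChar.tateLattice_tauChar p N r r.2 x)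
  exact Fermat.Agent.S31.Assembly.isUnramifiedAt_of_hasHeckeModule
    (Fermat.Agent.S31.HeckeModuleFinal.hasHeckeModule p N S hpS
      (Fermat.Agent.S30.Final.H1.hasReductionAll N p)
      (Fermat.Agent.S30.Descent.PhiDictThm.finite_torsion N hp.ne_zero)
      (Fermat.Agent.S30.Eigen.H4Final.latticeEquiv_tauPar N) ep H3)
    hp𝒪 hpS hNS H q hq hqS

end Fermat.Agent.S31
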