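import Fermat.Statements.S32
import Fermat.Agent.S19.ApiX0
import Fermat.Agent.S32.OrdX0
import Fermat.Agent.S32.Final

set_option autoImplicit false
variable {p : ℕ} {N : ℕ} [NeZero N] {S : Finset ℕ}
  {𝒪 : Type} [CommRing 𝒪] [IsDomain 𝒪] [IsDiscreteValuationRing 𝒪]
  [IsAdicComplete (IsLocalRing.maximalIdeal 𝒪) 𝒪]
  {θ : CuspForm.heckeAlgebra N 2 (↑S : Set ℕ) →+* IsLocalRing.ResidueField 𝒪}
  {T : Type} [CommRing T] [IsLocalRing T] [IsNoetherianRing T]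
  [IsAdicComplete (IsLocalRing.maximalIdeal T) T] [Algebra 𝒪 T] [IsLocalHom (algebraMap 𝒪 T)]
  [Module.Finite 𝒪 T] [Module.Free 𝒪 T]
open CuspForm CuspForm.HeckeGaloisRepDatum

namespace Fermat.Agent.S32

theorem result
    [Finite (IsLocalRing.ResidueField 𝒪)] [CharZero 𝒪]
    (hp : p.Prime) (hp2 : p ≠ 2) (hp𝒪 : (p : 𝒪) ∈ IsLocalRing.maximalIdeal 𝒪) (hpN : ¬ p ∣ N)
    (hpS : p ∈ S) (hNS : ∀ q : ℕ, q.Prime → q ∣ N → q ∈ S)
    (H : CuspForm.HeckeGaloisRepDatum N (↑S : Set ℕ) 𝒪 θ T) :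
    H.ρ.IsFlatAt p := by
  haveI : Fact p.Prime := ⟨hp⟩
  exact Fermat.Agent.S32.Final.isFlatAt_of_hord hp hp2 hp𝒪 hpS hNS H (fun k =>
    Fermat.Agent.S32.OrdX0.hord_of_fn
      (Fermat.Agent.S19.CloseX0.exists_isHopfOrderFn_of_chartAPI
        (fun A hA => Fermat.Agent.S19.ApiX0.exists_chartAPIAt hpN k A hA)))

end Fermat.Agent.S32
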