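/-
Statement S33 (row 32): a Hecke-Galois datum of level `N`, `p ∥ N`, `p` odd, residually ordinary at
`p`, is ordinary at `p`.  PROJECT N, route H8, final assembly:

* `Alg/TopOfKP.frozen_of_kpid` : the conclusion from `(KP-id)_T`
  `(ρ τ - χ τ)(ρ σ - 1) = 0` for `σ τ` in an inertia group at `p`;
* `KP/LevelLoc.kpid_of_levels` : `(KP-id)_T` from `(KP-id)` at every finite level of `T_p J₀(N)`
  (localised transfer);
* `KP/Level.exists_cut_kp` : `(KP-id)` at every finite level from SEAM Ω and `hres`;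
* `X0/SeamC.exists_inertiaFrame` : SEAM Ω for `J₀(M p)`, `p ∤ M` (the nodal chart of the kernel of
  reduction).
-/
import Fermat.Statements.S33
import Fermat.Agent.S33.Alg.TopOfKP
import Fermat.Agent.S33.KP.LevelLoc
import Fermat.Agent.S33.KP.Level
import Fermat.Agent.S33.X0.SeamC

set_option autoImplicit false
variable {p : ℕ} {N : ℕ} [NeZero N] {S : Finset ℕ}
  {𝒪 : Type} [CommRing 𝒪] [IsDomain 𝒪] [IsDiscreteValuationRing 𝒪]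
  [IsAdicComplete (IsLocalRing.maximalIdeal 𝒪) 𝒪]
  {θ : CuspForm.heckeAlgebra N 2 (↑S : Set ℕ) →+* IsLocalRing.ResidueField 𝒪}
  {T : Type} [CommRing T] [IsLocalRing T] [IsNoetherianRing T]
  [IsAdicComplete (IsLocalRing.maximalIdeal T) T] [Algebra 𝒪 T] [IsLocalHom (algebraMap 𝒪 T)]
  [Module.Finite 𝒪 T] [Module.Free 𝒪 T]
open CuspForm CuspForm.HeckeGaloisRepDatum

namespace Fermat.Agent.S33

open IsLocalRing Fermat.Agent.S30.Padic.TateModule ModularCurve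
open Fermat.Agent.S30.Algebra

local notation "Qbar" => AlgebraicClosure ℚ
local notation "GQ" => (AlgebraicClosure ℚ ≃ₐ[ℚ] AlgebraicClosure ℚ)

theorem result
    [Finite (IsLocalRing.ResidueField 𝒪)] [CharZero 𝒪]
    (hp : p.Prime) (hp2 : p ≠ 2) (hp𝒪 : (p : 𝒪) ∈ IsLocalRing.maximalIdeal 𝒪) (hN : p ∣ N ∧ ¬ p ^ 2 ∣ N)
    (hNS : ∀ q : ℕ, q.Prime → q ∣ N → q ∈ S)
    (H : CuspForm.HeckeGaloisRepDatum N (↑S : Set ℕ) 𝒪 θ T)
    (hres : (GaloisRepAdic.ofResidualGaloisRep H.ρ.residual).IsOrdinaryAt p) :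
    H.ρ.IsOrdinaryAt p := by
  refine Fermat.Agent.S33.Alg.TopOfKP.frozen_of_kpid hp hp2 hp𝒪 hN hNS H (fun hF => ?_)
  have := hF
  have hpS : p ∈ S := hNS p hp hN.1
  obtain ⟨θΛ, hM, hcommAll, hinj⟩ := Fermat.Agent.S32.TateHecke.hasTheta p N S hpS hNS
  have hpT : (p : T) ∈ maximalIdeal T := Fermat.Agent.S32.Level.natCast_mem_maximalIdeal hp𝒪
  obtain ⟨ι⟩ : Nonempty (ℤ_[p] →+* T) := Fermat.Agent.S33.Alg.TopOfKP.nonempty_ringHom hp𝒪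
  refine ⟨ι, ?_⟩
  have hnotdvd : ∀ ℓ : ℕ, ℓ.Prime → ℓ ∉ S → ¬ ℓ ∣ N := fun ℓ hℓ hℓS h => hℓS (hNS ℓ hℓ h)
  have hcoe : ∀ ℓ : ℕ, ℓ ∉ S → ℓ ∉ (↑S : Set ℕ) := fun ℓ h => by rwa [Finset.mem_coe]
  have hcp : Fermat.Agent.S31.Core.FrobCharpolyVia H.ρ S (Fermat.Agent.S31.Assembly.Tl N S) H.π := by
    intro ℓ hℓ hℓS A hA τ hτ
    rw [Fermat.Agent.S31.Assembly.Tl_eq hℓ (hnotdvd ℓ hℓ hℓS) (hcoe ℓ hℓS)]
    exact H.charpoly_frob ℓ hℓ (hnotdvd ℓ hℓ hℓS) (hcoe ℓ hℓS) A hA τ hτ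
  have hdet : ∀ g : GQ, LinearMap.det (H.ρ.ρ g) = Cyclotomic.cycChar p ι g :=
    Fermat.Agent.S33.Alg.TopOfKP.det_eq_cycChar hp𝒪 hpS hNS H ι
  have hinj1 : ∃ n' : ℕ, ∀ t : heckeAlgebra N 2 (↑S : Set ℕ),
      (∀ v : Tp p (JZero N), θΛ t v ∈
        (Ideal.span {(p : ℤ_[p])} ^ n') • (⊤ : Submodule ℤ_[p] (Tp p (JZero N)))) →
        t ∈ Ideal.span {(p : heckeAlgebra N 2 (↑S : Set ℕ))} := by
    obtain ⟨n', hn'⟩ := hinj 1
    exact ⟨n', fun t ht => by simpa using hn' t ht⟩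
  have hfin : ∀ k : ℕ, {y : JZero N | p ^ k • y = 0}.Finite := fun k =>
    Fermat.Agent.S30.Descent.PhiDictThm.finite_torsion N (pow_ne_zero k hp.ne_zero)
  have hΩ : ∀ A : ValuationSubring Qbar, A.LiesOverPrime p → ∃ U : AddSubgroup (JZero N),
      (∀ τ ∈ A.inertiaSubgroupIn ℚ, ∀ z ∈ U, τ • z ∈ U) ∧
      (∀ (k : ℕ) (y : JZero N), p ^ k • y = 0 → ∀ τ ∈ A.inertiaSubgroupIn ℚ, τ • y - y ∈ U) ∧
      ∀ (k : ℕ) (B : AddSubgroup (JZero N)), (∀ z ∈ B, z ∈ U ∧ p ^ k • z = 0) →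
        Fermat.Agent.S33.Alg.Reach.Reach
          (fun (τ : ↥(A.inertiaSubgroupIn ℚ)) (z : JZero N) => (τ : GQ) • z) p B →
        ∀ τ : ↥(A.inertiaSubgroupIn ℚ), ∀ z ∈ B,
          (τ : GQ) • z = Fermat.Agent.S15.P.CycAct.cycExp p k (τ : GQ) • z := by
    intro A hA
    obtain ⟨M, rfl⟩ : ∃ M, N = M * p := by
      obtain ⟨M, hM⟩ := hN.1
      exact ⟨M, by rw [hM, mul_comm]⟩
    have hM0 : NeZero M := ⟨fun h => NeZero.ne (M * p) (by rw [h, zero_mul])⟩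
    have hp0 : NeZero p := ⟨hp.ne_zero⟩
    have hpM : ¬ p ∣ M := by
      rintro ⟨c, rfl⟩
      exact hN.2 ⟨c, by ring⟩
    exact Fermat.Agent.S33.X0.SeamC.exists_inertiaFrame hA hpM
  obtain ⟨h, hh, hlev⟩ := Fermat.Agent.S33.KP.Level.exists_cut_kp hM hcommAll hinj1 H.ρ H.π hcp
    (fun L _ s => Fermat.Agent.S30.Density.Bridge.frobenius_density_final L s S)
    ι hdet hpT hres hp2 hfin hΩ
  intro P hP σ hσ τ hτ
  refine Fermat.Agent.S33.KP.LevelLoc.kpid_of_levels hp2 hp𝒪 hpS hNS H θΛ hM hcommAll hinj h hh ι σ τ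
    (fun k => ⟨k, ((Fermat.Agent.S15.P.CycAct.cycExp p k τ : ℕ) : ℤ), ?_, hlev k P hP σ hσ τ hτ⟩)
  have h : ((Fermat.Agent.S15.P.CycAct.cycExp p k τ : ℕ) : ZMod (p ^ k)) =
      PadicInt.toZModPow k ((Cyclotomic.cyc p τ : ℤ_[p]ˣ) : ℤ_[p]) :=
    ZMod.natCast_zmod_val (PadicInt.toZModPow k ((Cyclotomic.cyc p τ : ℤ_[p]ˣ) : ℤ_[p]))
  rw [← PadicInt.ker_toZModPow, RingHom.mem_ker, map_sub, map_intCast, Int.cast_natCast, h,
    sub_self]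

end Fermat.Agent.S33
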