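import Fermat.Statements.S34
import Fermat.Agent.S34.Top
import Fermat.Agent.S34.UOfCoreZ
import Fermat.Agent.S34.CoreZX0

/-!
# S34: unipotent inertia at the primes `q ∥ N`, `q ≠ p`, in a Hecke-Galois datum

* `S34/Top.lean` (`s34_of_uHyp`): the conclusion from `(U)`: `(s - 1)² = 0` on `J₀(N)[p^∞]` for
  `s` in an inertia group at `q` (the Hecke-Galois module `T_p J₀(N)` of S31; `tr ρ(s) = 2` by the
  Hecke-valued trace, `det ρ` is the cyclotomic character).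
* `S34/UOfCoreZ.lean`: `(U)` at level `N = (N / q) q` from `(Core-Z)` (Kummer theory with the two
  Gauss valuations of `ℚ̄(X₀(M q))`).
* `S34/CoreZX0.lean` (`coreZHyp`): `(Core-Z)`: the inertia group acts trivially on the classes of
  functions which are `≡ 1` at both Gauss valuations (nodal core + gluing at the nodes).
-/

set_option autoImplicit false
set_option linter.style.haveILetI false
open IsLocalRing
open CuspForm CuspForm.HeckeGaloisRepDatum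

namespace Fermat.Agent.S34

theorem result
    {𝒪 : Type} [CommRing 𝒪] [IsDomain 𝒪] [IsDiscreteValuationRing 𝒪]
    [IsAdicComplete (maximalIdeal 𝒪) 𝒪] [Finite (ResidueField 𝒪)] [CharZero 𝒪]
    {p : ℕ} (hp : p.Prime) (hp𝒪 : (p : 𝒪) ∈ maximalIdeal 𝒪)
    {N : ℕ} [NeZero N] {S : Finset ℕ} (hpS : p ∈ S) (hNS : ∀ q : ℕ, q.Prime → q ∣ N → q ∈ S)
    {θ : CuspForm.heckeAlgebra N 2 (↑S : Set ℕ) →+* ResidueField 𝒪}
    {T : Type} [CommRing T] [IsLocalRing T] [IsNoetherianRing T]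
    [IsAdicComplete (maximalIdeal T) T] [Algebra 𝒪 T] [IsLocalHom (algebraMap 𝒪 T)]
    [Module.Finite 𝒪 T] [Module.Free 𝒪 T]
    (H : CuspForm.HeckeGaloisRepDatum N (↑S : Set ℕ) 𝒪 θ T)
    (q : ℕ) (hq : q.Prime) (hqp : q ≠ p) (hqN : q ∣ N) (hq2 : ¬ q ^ 2 ∣ N) :
    H.ρ.IsUnipotentOnInertiaAt q := by
  haveI : Fact q.Prime := ⟨hq⟩
  haveI : NeZero q := ⟨hq.ne_zero⟩
  haveI : NeZero (N / q) :=
    ⟨(Nat.div_pos (Nat.le_of_dvd (Nat.pos_of_ne_zero (NeZero.ne N)) hqN) hq.pos).ne'⟩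
  exact Fermat.Agent.S34.Top.s34_of_uHyp hp hp𝒪 hpS hNS H q hq hqp
    (Fermat.Agent.S34.UOfCoreZ.uHyp_of_coreZHyp hq hp.ne_zero hqN hq2
      (Fermat.Agent.S34.CoreZX0.coreZHyp (N / q) q p hp hqp.symm))

end Fermat.Agent.S34
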