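import Fermat.Statements.S35
import Fermat.Agent.S35.NewSigmaX0
import Fermat.Agent.S35.FrobZOfGeneric
import Fermat.Agent.S34.CoreZX0

/-!
# S35: the Galois representation attached to a weight-2 newform, with the Frobenius
characteristic polynomials at the good primes and at the primes `q ‖ M`

`OfDict.s35_of_newSigma` (helper19) reduces the frozen statement to `(NEW-σ)`: for a Frobenius
lift `σ` at `q ∤ M'`, `(σ² - 1)² (σ² - q²)` kills the `p`-power torsion of
`ker α_* ∩ ker β_* ⊆ J₀(M' q)`.  `NewSigmaX0.newSigma_of_frobZ` (helper8) derives `(NEW-σ)` from the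
two Kummer layers: (N1) `N1X0.n1_of_torsion` (norm formulas along the two degeneracy maps) and
(N2) `FrobZOfPrincipal.FrobZHyp`, which `FrobZOfGeneric.frobZHyp_of_generic` (helper18) proves from
the nodal reduction of `X₀(M' q)` at `q` built in PROJECT U (`S34/CoreZX0.genericX0_all`, helper6).
-/

set_option autoImplicit false
set_option autoImplicit false
open Polynomial
open CuspForm CuspForm.IsNewform

namespace Fermat.Agent.S35

theorem result
    {M : ℕ} [NeZero M] {g : CuspForm (CongruenceSubgroup.Gamma0 M) 2} (hg : g.IsNewform)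
    (lam : ℕ) [Fact lam.Prime]
    (S : Finset ℕ)
    (O' : Type) [CommRing O'] [IsDomain O'] [IsDiscreteValuationRing O']
    [IsAdicComplete (IsLocalRing.maximalIdeal O') O'] [Finite (IsLocalRing.ResidueField O')]
    [CharZero O'] (hlamO' : (lam : O') ∈ IsLocalRing.maximalIdeal O')
    (chig : CuspForm.heckeAlgebra M 2 (↑S : Set ℕ) →+* ℂ)
    (hchig : ∀ (ℓ : ℕ) (hℓ : ℓ.Prime) (hℓM : ¬ ℓ ∣ M) (hℓS : ℓ ∉ (↑S : Set ℕ)),
      chig (CuspForm.heckeAlgebra.T hℓ hℓM hℓS) = ModularFormClass.qCoeff g ℓ)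
    (iota : chig.range →+* O')
    (hlamS : lam ∈ S) (hMS : ∀ q : ℕ, q.Prime → q ∣ M → q ∈ S)
    :
    ∃ (O'' : Type) (_ : CommRing O'') (_ : IsDomain O'') (_ : IsDiscreteValuationRing O'')
      (_ : IsAdicComplete (IsLocalRing.maximalIdeal O'') O'') (_ : Finite (IsLocalRing.ResidueField O''))
      (_ : CharZero O'') (_ : Algebra O' O'') (_ : Module.Finite O' O'') (_ : IsLocalHom (algebraMap O' O'')),
      Function.Injective (algebraMap O' O'') ∧
      ∃ ρ : GaloisRepAdic O'',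
        (∀ (ℓ : ℕ) (hℓ : ℓ.Prime) (hℓM : ¬ ℓ ∣ M) (hℓS : ℓ ∉ (↑S : Set ℕ)),
          ∀ A : ValuationSubring (AlgebraicClosure ℚ), A.LiesOverPrime ℓ →
            ∀ σ : AlgebraicClosure ℚ ≃ₐ[ℚ] AlgebraicClosure ℚ, A.IsFrobeniusAt σ ℓ →
              LinearMap.charpoly (ρ.ρ σ) =
                X ^ 2 - C (algebraMap O' O'' ((iota.comp chig.rangeRestrict) (CuspForm.heckeAlgebra.T hℓ hℓM hℓS))) * X
                  + C ((ℓ : O''))) ∧
        (∀ q : ℕ, q.Prime → q ≠ lam → q ∣ M → ¬ q ^ 2 ∣ M →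
          ∀ A : ValuationSubring (AlgebraicClosure ℚ), A.LiesOverPrime q →
            ∀ σ : AlgebraicClosure ℚ ≃ₐ[ℚ] AlgebraicClosure ℚ, A.IsFrobeniusAt σ q →
              LinearMap.charpoly (ρ.ρ σ) = X ^ 2 - C ((q : O'') + 1) * X + C ((q : O'')) ∨
              LinearMap.charpoly (ρ.ρ σ) = X ^ 2 + C ((q : O'') + 1) * X + C ((q : O''))) :=
  Fermat.Agent.S35.OfDict.s35_of_newSigma
    (Fermat.Agent.S35.NewSigmaX0.newSigma_of_frobZ fun M' q _ _ _ _ hp _ hqp =>
      Fermat.Agent.S35.FrobZOfGeneric.frobZHyp_of_generic hp hqp.symm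
        (Fermat.Agent.S34.CoreZX0.genericX0_all M' q))
    hg lam S O' hlamO' chig hchig iota hlamS hMS

end Fermat.Agent.S35
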