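-- Statement S37 (PROJECT I): existence of the specialisation (Eichler-Shimura) data for `J₀(N)`.
-- Final wiring: `S37/Glue.lean` (R1-R4 from the reduction inputs), `S37/GenusAll.lean`
-- (`ReductionInputsModL A N` from the cusp count) and `S37/Cusps/EmbK.lean` (the cusp count).
import Fermat.Statements.S37
import Fermat.Agent.S37.Glue
import Fermat.Agent.S37.GenusAll
import Fermat.Agent.S37.Cusps.EmbK

set_option autoImplicit false
open ModularCurve

namespace Fermat.Agent.S37

theorem result (N p : ℕ) [NeZero N] (hcomm : ModularCurve.HeckeOperatorsCommuteBar N) : letI := ModularCurve.heckeModuleBar N; ∀ (_ : SMulCommClass (AlgebraicClosure ℚ ≃ₐ[ℚ] AlgebraicClosure ℚ) ModularCurve.HeckeAlg (ModularCurve.JZero N)), ModularCurve.SpecializationExists (K := ℚ) (L := AlgebraicClosure ℚ) N p (ModularCurve.JZero N) :=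
  Fermat.Agent.S37.Glue.result_of_reductionInputs N p hcomm (fun ℓ hℓ hℓN A hA =>
    haveI : Fact ℓ.Prime := ⟨hℓ⟩
    Fermat.Agent.S37.GenusAll.reductionInputsModL N A hA hℓN
      (fun _ => Fermat.Agent.S37.Cusps.EmbK.cuspCount N A hA hℓN))

end Fermat.Agent.S37
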