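-- Statement S41: level raising (Ribet).  Assembly of PROJECT R.
import Fermat.Statements.S41
import Fermat.Agent.S41.Lift
import Fermat.Agent.S41.Deg.NewAtQ
import Fermat.Agent.S41.NonEis.MainSq
import Fermat.Agent.S41.Ihara.Assembly
import Fermat.Agent.S41.Deg.HeckeComm
import Fermat.Agent.S41.PD.Final
import Fermat.Agent.S41.PD.Level2
import Fermat.Agent.S41.CSP.WeakIhara

set_option autoImplicit false
open WeierstrassCurve WeierstrassCurve.Affine WeierstrassCurve.Affine.Point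
open scoped CongruenceSubgroup
open WeierstrassCurve

namespace Fermat.Agent.S41

theorem result
    (E : WeierstrassCurve ℚ) [E.IsElliptic] {W : WeierstrassCurve ℤ} (hW : W.IsIntegralModelOf E)
    {p N q' : ℕ} (hp : p.Prime) (hp2 : p ≠ 2) (hN : 0 < N) (hq' : q'.Prime) (hq'N : ¬ q' ∣ N) (hq'p : q' ≠ p)
    (hirr : GaloisRepIsIrreducible (K := AlgebraicClosure ℚ) ℚ E p)
    (f : CuspForm (CongruenceSubgroup.Gamma0 N) 2) (𝔪 : Ideal (integralClosure ℤ ℂ))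
    (hf : f.IsNormalizedEigenform) (hmax : 𝔪.IsMaximal) (hpm : (p : integralClosure ℤ ℂ) ∈ 𝔪)
    (hcong : ∀ ℓ : ℕ, ℓ.Prime → W.IsGoodPrimeFor ℓ → ¬ ℓ ∣ N → ℓ ≠ p →
      ∃ a : integralClosure ℤ ℂ, (a : ℂ) = ModularFormClass.qCoeff f ℓ ∧
        a - ((W.apOfModel ℓ : ℤ) : integralClosure ℤ ℂ) ∈ 𝔪)
    (hLR : ∃ a : integralClosure ℤ ℂ, (a : ℂ) = ModularFormClass.qCoeff f q' ∧
      a ^ 2 - ((q' : integralClosure ℤ ℂ) + 1) ^ 2 ∈ 𝔪) :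
    ∃ (g : CuspForm (CongruenceSubgroup.Gamma0 (N * q')) 2) (𝔪' : Ideal (integralClosure ℤ ℂ)),
      g.IsNormalizedEigenform ∧ 𝔪'.IsMaximal ∧ (p : integralClosure ℤ ℂ) ∈ 𝔪' ∧
      (∀ ℓ : ℕ, ℓ.Prime → W.IsGoodPrimeFor ℓ → ¬ ℓ ∣ N * q' → ℓ ≠ p →
        ∃ a : integralClosure ℤ ℂ, (a : ℂ) = ModularFormClass.qCoeff g ℓ ∧
          a - ((W.apOfModel ℓ : ℤ) : integralClosure ℤ ℂ) ∈ 𝔪') ∧
      g.IsNewAt q' := by
  have : NeZero q' := ⟨hq'.ne_zero⟩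
  exact Lift.level_raising_of_seams E hW hp hp2 hN hq' hq'N hirr f 𝔪 hf hmax hpm hcong hLR
    (Deg.HeckeComm.degComm hq' hq'N)
    (fun y h1 h2 => ⟨(Deg.NewAtQ.Uq_mem_ker hq' hq'N y h1 h2).1,
      (Deg.NewAtQ.Uq_mem_ker hq' hq'N y h1 h2).2, Deg.NewAtQ.Uq_sq_of_mem_ker hq' hq'N y h1 h2⟩)
    (Ihara.Assembly.iharaMod_of_weakIhara hq' hq'N hp.ne_zero
      (CSP.WeakIhara.weakIharaAt_zmod hp hq' hq'N hN hq'p))
    (PD.Final.pdMod (fun hq hqN _ _ y z => PD.Level2.BN_alphaPar2 hq hqN y z) p hp hN hq' hq'N)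
    (fun S => NonEis.MainSq.exists_prime_ap_sq_ne E hW hp hp2 hirr S)

end Fermat.Agent.S41
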