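-- Statement S43 (row 37): the Frey form of Ribet's level lowering, one odd prime at a time.
-- The statement below is byte-identical to the frozen statement FreyPackage.FermatFrozen.S43
-- (Fermat/Statements/S43.lean; the theorem FreyPackage.level_lowering_odd_prime_of_conductorLevel).
-- PROJECT R: `Engine.s43_of_engine (Reduce.engine_of T1.Main.mazurFrey Assembly.StuckStep.stuckStep)`.
import Fermat.Statements.S43
import Fermat.Agent.S43.Engine
import Fermat.Agent.S43.Assembly.Reduce
import Fermat.Agent.S43.T1.Main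
import Fermat.Agent.S43.Assembly.StuckStep

set_option autoImplicit false
open WeierstrassCurve WeierstrassCurve.Affine WeierstrassCurve.Affine.Point
open CuspForm ModularFormClass UpperHalfPlane
open FreyPackage

namespace Fermat.Agent.S43

theorem result (P : FreyPackage) {N q : ℕ} (hcond : P.IsConductorLevel N) (hq : q.Prime) (hq2 : q ≠ 2) (hqp : q ≠ P.p) (hqN : q ∣ N) (hirr : GaloisRepIsIrreducible (K := AlgebraicClosure ℚ) ℚ P.freyCurve P.p) (hmod : P.ModularRepOfLevel N) (hunr : P.GaloisRepUnramifiedAt q) : ∃ M : ℕ, M ∣ N ∧ ¬ q ∣ M ∧ P.ModularRepOfLevel M :=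
  Fermat.Agent.S43.Engine.s43_of_engine
    (Fermat.Agent.S43.Assembly.Reduce.engine_of Fermat.Agent.S43.T1.Main.mazurFrey
      Fermat.Agent.S43.Assembly.StuckStep.stuckStep) P hcond hq hq2 hqp hqN hirr hmod hunr

end Fermat.Agent.S43
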