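-- Statement S48 (row 43): Deligne–Serre, the Galois representation of a weight one eigenform.
-- The statement below is byte-identical to the frozen statement DeligneSerre.FermatFrozen.S48
-- (Fermat/Statements/S48.lean; the theorem DeligneSerre.exists_galoisRep_of_weightOne_qCoeff_hecke_eigen).
-- PROJECT D: part A (S48/A/*, from the residual representations to the complex one), part B
-- (S48/B/*, S48/B7/*: the residual representations, through the Jacobian of X₁(M)), wired in
-- S48/Top.lean and S48/Reduction.lean.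
import Fermat.Statements.S48
import Fermat.Agent.S48.Reduction

set_option autoImplicit false
set_option autoImplicit false
open CongruenceSubgroup
open scoped MatrixGroups
local notation "Γℚ" => (AlgebraicClosure ℚ ≃ₐ[ℚ] AlgebraicClosure ℚ)
open DeligneSerre

namespace Fermat.Agent.S48

theorem result
    (N : ℕ) [NeZero N] (ε : DirichletCharacter ℂ N) (f : CuspForm (Gamma1 N) 1)
    (hf₁ : ModularFormClass.qCoeff f 1 = 1)
    (hT : ∀ p : ℕ, p.Prime → ¬ p ∣ N → ∀ n : ℕ,
        ModularFormClass.qCoeff f (p * n) +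
            ε (p : ZMod N) * (if p ∣ n then ModularFormClass.qCoeff f (n / p) else 0) =
          ModularFormClass.qCoeff f p * ModularFormClass.qCoeff f n) :
    ∃ ρ : Γℚ →* GL (Fin 2) ℂ, GaloisFactorsThroughFiniteLevel ρ ∧
      (Deformation.matrixRepresentation ρ).IsIrreducible ∧
      ∀ p : ℕ, p.Prime → ¬ p ∣ N →
        ∀ A : ValuationSubring (AlgebraicClosure ℚ), A.LiesOverPrime p →
          (∀ σ ∈ A.inertiaSubgroupIn ℚ, ρ σ = 1) ∧
          ∀ σ : Γℚ, A.IsFrobeniusAt σ p →
            ((ρ σ : GL (Fin 2) ℂ) : Matrix (Fin 2) (Fin 2) ℂ).trace = ModularFormClass.qCoeff f p ∧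
            ((ρ σ : GL (Fin 2) ℂ) : Matrix (Fin 2) (Fin 2) ℂ).det = ε (p : ZMod N) :=
  Fermat.Agent.S48.Reduction.deligneSerre N ε f hf₁ hT

end Fermat.Agent.S48
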