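-- Statement S49: the Deligne–Serre lifting lemma.
import Fermat.Statements.S49
import Fermat.Agent.S49.DS.Formal
import Fermat.Agent.S49.DS.Lifting
import Fermat.Agent.S49.DS.Integral
import Fermat.Agent.S49.DS.Steps

set_option autoImplicit false
open CuspForm EisensteinWeightOne CongruenceSubgroup ModularFormClass
open FLT FLT.AbstractIntegralStructure

namespace Fermat.Agent.S49

theorem result
    {N : ℕ} [NeZero N] (h : CuspForm.HasIntegralBasis N) {a : ℕ → ℤ}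
    (heig : FormalHecke.IsEigensystem
      (fun ℓ => if ℓ ∣ N then 0 else ((chiNegThree ℓ : ℤ) : ℤ)) a)
    (hreal : CuspForm.IsLatticeRealized N a) :
    ∃ (f : CuspForm (Gamma0 N) 2) (_ : f.IsNormalizedEigenform)
      (𝔪' : Ideal (integralClosure ℤ ℂ)), 𝔪'.IsMaximal ∧
      ((3 : ℕ) : integralClosure ℤ ℂ) ∈ 𝔪' ∧
      ∀ (ℓ : ℕ) (_ : ℓ.Prime) (_ : ¬ ℓ ∣ N),
        ∃ c : integralClosure ℤ ℂ, (c : ℂ) = ModularFormClass.qCoeff f ℓ ∧
          c - (a ℓ : integralClosure ℤ ℂ) ∈ 𝔪' := by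
  classical
  obtain ⟨f₀, hf₀, af, haf, hafcong⟩ := hreal
  have hcong : ∀ n, (3 : ℤ) ∣ af n - a n := fun n => by
    have h1 := hafcong n
    have h2 := three_dvd_bridgeProduct_coeff_sub a n
    have h3 : af n - a n =
        (af n - (bridgeProduct a).coeff n) + ((bridgeProduct a).coeff n - a n) := by ring
    rw [h3]
    exact dvd_add h1 h2
  have hfin : Module.Finite ℂ (CuspForm (Gamma0 N) 2) := finite_of_hasIntegralBasis h
  have hf₀L : f₀ ∈ CuspForm.intLattice N 2 := qIntegralSet_subset_intLattice N hf₀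
  have hcomm : ∀ x ∈ (CuspForm.heckeAlgebra N 2 ∅ :
        Set (Module.End ℂ (CuspForm (Gamma0 N) 2))),
      ∀ y ∈ (CuspForm.heckeAlgebra N 2 ∅ : Set (Module.End ℂ (CuspForm (Gamma0 N) 2))),
        x * y = y * x := fun x hx y hy => setLike_mul_comm hx hy
  have hT : ∀ (ℓ : ℕ) (hℓ : ℓ.Prime) (hℓN : ¬ ℓ ∣ N),
      CuspForm.heckeTLin 2 hℓ hℓN ∈ CuspForm.heckeAlgebra N 2 ∅ := fun ℓ hℓ hℓN =>
    CuspForm.heckeTLin_mem_heckeAlgebra hℓ hℓN (Set.notMem_empty ℓ)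
  have hU : ∀ (q : ℕ) (hq : q.Prime) (hqN : q ∣ N),
      CuspForm.heckeULin 2 hqN ∈ CuspForm.heckeAlgebra N 2 ∅ := fun q hq hqN =>
    CuspForm.heckeULin_mem_heckeAlgebra hq hqN (Set.notMem_empty q)
  have hscalar : ∀ m : ℤ, (m : ℂ) • (1 : Module.End ℂ (CuspForm (Gamma0 N) 2)) ∈
      CuspForm.heckeAlgebra N 2 ∅ := fun m => by
    have h1 : (m : ℂ) • (1 : Module.End ℂ (CuspForm (Gamma0 N) 2)) =
        algebraMap ℤ (Module.End ℂ (CuspForm (Gamma0 N) 2)) m := by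
      rw [Algebra.algebraMap_eq_smul_one, Int.cast_smul_eq_zsmul]
    rw [h1]
    exact Subalgebra.algebraMap_mem _ m
  -- the ideal of operators sending `f₀` into `3 L`
  obtain ⟨f, hf, heigf, 𝔪', hmax, h𝔪'⟩ := lifting
    (CuspForm.heckeAlgebra N 2 ∅ : Set (Module.End ℂ (CuspForm (Gamma0 N) 2))) hcomm
    {t | t ∈ CuspForm.heckeAlgebra N 2 ∅ ∧ ∃ g ∈ CuspForm.intLattice N 2, t f₀ = (3 : ℂ) • g}
    (fun t ht => ht.1)
    (by
      rintro s ⟨hs, g, hg, hsg⟩ s' ⟨hs', g', hg', hs'g'⟩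
      refine ⟨mul_mem hs hs', s g',
        CuspForm.mem_intLattice_of_mem_heckeAlgebra (by norm_num) hs hg', ?_⟩
      rw [Module.End.mul_apply, hs'g', map_smul])
    (qCoeffLin N 2 1) f₀
    (by
      rintro s ⟨-, g, hg, hsg⟩
      obtain ⟨m, hm⟩ := (mem_intLattice_iff g).mp hg 1
      refine ⟨(m : integralClosure ℤ ℂ), ?_⟩
      rw [hsg, map_smul, qCoeffLin_apply, hm, smul_eq_mul]
      simp)
    (by
      obtain ⟨d, hd⟩ := hcong 1
      refine ⟨(d : integralClosure ℤ ℂ), ?_⟩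
      rw [qCoeffLin_apply, ← haf]
      have h1 : af 1 = 1 + 3 * d := by
        have := heig.1
        linarith
      rw [h1]
      push_cast
      ring)
  -- the eigen-relations on `q`-coefficients
  have hrel : ∀ ℓ : ℕ, ℓ.Prime → ∃ μ : ℂ, ∀ n : ℕ,
      qCoeff ⇑f (ℓ * n) + (if ℓ ∣ N then 0 else (ℓ : ℂ)) *
        (if ℓ ∣ n then qCoeff ⇑f (n / ℓ) else 0) = μ * qCoeff ⇑f n := by
    intro ℓ hℓ
    by_cases hℓN : ℓ ∣ N
    · obtain ⟨μ, hμ⟩ := heigf _ (hU ℓ hℓ hℓN)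
      refine ⟨μ, fun n => ?_⟩
      have h1 := congrArg (fun g : CuspForm (Gamma0 N) 2 => qCoeff ⇑g n) hμ
      simp only [qCoeff_heckeULin hℓ, qCoeff_smul] at h1
      rw [if_pos hℓN, zero_mul, add_zero, mul_comm ℓ n]
      exact h1
    · obtain ⟨μ, hμ⟩ := heigf _ (hT ℓ hℓ hℓN)
      refine ⟨μ, fun n => ?_⟩
      have h1 := congrArg (fun g : CuspForm (Gamma0 N) 2 => qCoeff ⇑g n) hμ
      simp only [qCoeff_heckeTLin, qCoeff_smul] at h1
      have hpow : ((ℓ : ℂ)) ^ ((2 : ℤ) - 1) = (ℓ : ℂ) := by norm_num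
      rw [hpow] at h1
      rw [if_neg hℓN, mul_comm ℓ n, ← h1]
      split_ifs <;> simp
  have hb1 : qCoeff ⇑f 1 ≠ 0 := by
    intro h1
    have hall := eq_zero_of_eigen_of_one_eq_zero hrel h1
    apply hf
    apply eq_zero_of_qCoeff_eq_zero
    intro n
    rcases Nat.eq_zero_or_pos n with rfl | hn
    · exact qCoeff_cusp_zero f
    · exact hall n hn
  have hb' : ∀ n, qCoeff ⇑((qCoeff ⇑f 1)⁻¹ • f) n = (qCoeff ⇑f 1)⁻¹ * qCoeff ⇑f n :=
    fun n => qCoeff_smul _ f n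
  have hEig : FormalHecke.IsEigensystem (fun ℓ : ℕ => if ℓ ∣ N then (0 : ℂ) else (ℓ : ℂ))
      (fun n => qCoeff ⇑((qCoeff ⇑f 1)⁻¹ • f) n) := by
    refine ⟨?_, fun ℓ hℓ n => ?_⟩
    · show qCoeff ⇑((qCoeff ⇑f 1)⁻¹ • f) 1 = 1
      rw [hb', inv_mul_cancel₀ hb1]
    · obtain ⟨μ, hμ⟩ := hrel ℓ hℓ
      have hμ1 := hμ 1
      have hnd : ¬ ℓ ∣ 1 := fun hd => hℓ.one_lt.ne' (Nat.dvd_one.mp hd)
      rw [if_neg hnd, mul_zero, add_zero, mul_one] at hμ1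
      have hμn := hμ n
      show qCoeff ⇑((qCoeff ⇑f 1)⁻¹ • f) (ℓ * n) + (if ℓ ∣ N then (0 : ℂ) else (ℓ : ℂ)) *
          (if ℓ ∣ n then qCoeff ⇑((qCoeff ⇑f 1)⁻¹ • f) (n / ℓ) else 0) =
        qCoeff ⇑((qCoeff ⇑f 1)⁻¹ • f) ℓ * qCoeff ⇑((qCoeff ⇑f 1)⁻¹ • f) n
      simp only [hb']
      rw [hμ1]
      have h2 : (qCoeff ⇑f 1)⁻¹ * (μ * qCoeff ⇑f 1) = μ := by
        field_simp
      rw [h2]
      have h3 : μ * ((qCoeff ⇑f 1)⁻¹ * qCoeff ⇑f n) = (qCoeff ⇑f 1)⁻¹ * (μ * qCoeff ⇑f n) := by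
        ring
      rw [h3, ← hμn]
      split_ifs <;> ring
  have hrecur := isRecursive_of_isEigensystem hEig
  have hnorm : ((qCoeff ⇑f 1)⁻¹ • f).IsNormalizedEigenform :=
    { qCoeff_one := hrecur.1
      qCoeff_mul_of_coprime := hrecur.2.1
      qCoeff_prime_pow_of_not_dvd := fun p r hp hpN => by
        have := hrecur.2.2 p r hp
        simpa [hpN] using this
      qCoeff_prime_pow_of_dvd := fun p r hp hpN => by
        have := hrecur.2.2 p r hp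
        simpa [hpN] using this }
  refine ⟨(qCoeff ⇑f 1)⁻¹ • f, hnorm, 𝔪', hmax, ?_, fun ℓ hℓ hℓN => ?_⟩
  · apply h𝔪' (((3 : ℤ) : ℂ) • (1 : Module.End ℂ (CuspForm (Gamma0 N) 2)))
      ⟨hscalar 3, f₀, hf₀L, by simp⟩
    rw [LinearMap.smul_apply, Module.End.one_apply]
    have h3 : (((3 : ℕ) : integralClosure ℤ ℂ) : ℂ) = ((3 : ℤ) : ℂ) := by
      push_cast
      rfl
    rw [h3]
  · obtain ⟨μ, hμ⟩ := heigf _ (hT ℓ hℓ hℓN)
    have hμint : IsIntegral ℤ μ :=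
      isIntegral_eigenvalue (isIntegral_of_mem_heckeAlgebra h (hT ℓ hℓ hℓN)) hf hμ
    refine ⟨⟨μ, hμint⟩, ?_, ?_⟩
    · show μ = qCoeff ⇑((qCoeff ⇑f 1)⁻¹ • f) ℓ
      rw [hb']
      have h1 := congrArg (fun g : CuspForm (Gamma0 N) 2 => qCoeff ⇑g 1) hμ
      simp only [qCoeff_heckeTLin, qCoeff_smul] at h1
      have hnd : ¬ ℓ ∣ 1 := fun hd => hℓ.one_lt.ne' (Nat.dvd_one.mp hd)
      rw [if_neg hnd, add_zero, one_mul] at h1
      rw [h1]
      field_simp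
    · apply h𝔪' (CuspForm.heckeTLin 2 hℓ hℓN -
          (a ℓ : ℂ) • (1 : Module.End ℂ (CuspForm (Gamma0 N) 2)))
        ⟨sub_mem (hT ℓ hℓ hℓN) (hscalar (a ℓ)),
          exists_three_smul_heckeT heig haf hcong hℓ hℓN⟩
      rw [LinearMap.sub_apply, hμ, LinearMap.smul_apply, Module.End.one_apply]
      push_cast
      rw [sub_smul]

end Fermat.Agent.S49
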