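-- Statement S51 (row 45): for a semistable integral Weierstrass curve, the mod-3 or the mod-5
-- representation is irreducible.  Proof: the X_0(15) argument.
--   * EC side (3- and 5-torsion data): Fermat.Agent.S51.Tors.Inputs (helper29 and the S51 team)
--   * modular algebra + j-values + semistability at 5: Fermat.Agent.S51.Wiring (helper25)
--   * quartic model <-> y^2 = x (x + 9) (x - 16): Fermat.Agent.S51.QuarticTransfer (helper14)
--   * rational points of y^2 = x (x + 9) (x - 16) (rank 0, Fermat descent):
--       Fermat.Agent.S51.Descent15 (helper5)
-- assembled in Fermat.Agent.S51.Final.result_of_weierstrass (helper25).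
import Fermat.Statements.S51
import Fermat.Agent.S51.Final
import Fermat.Agent.S51.Descent15

set_option autoImplicit false
open WeierstrassCurve WeierstrassCurve.Affine WeierstrassCurve.Affine.Point
open CuspForm ModularFormClass UpperHalfPlane
open WeierstrassCurve

namespace Fermat.Agent.S51

theorem result (W : WeierstrassCurve ℤ) (hΔ : W.Δ ≠ 0) (hW : W.IsSemistableModel) : W.ModRepIsIrreducible 3 ∨ W.ModRepIsIrreducible 5 :=
  result_of_weierstrass Descent15.rational_points_x W hΔ hW

end Fermat.Agent.S51
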