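-- Statement S52 (row 46): the 3-5 switch.  PROJECT W; the proof is `Fermat.Agent.S52.Final.switch`
-- (tree of record: `Fermat/Agent/S52/Seam.lean`, `Fermat/Agent/S52/Top.lean`, `Fermat/Agent/S52/Final.lean`).
import Fermat.Statements.S52
import Fermat.Agent.S52.Final

set_option autoImplicit false
open WeierstrassCurve WeierstrassCurve.Affine WeierstrassCurve.Affine.Point
open CuspForm ModularFormClass UpperHalfPlane
open WeierstrassCurve

namespace Fermat.Agent.S52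

theorem result (W : WeierstrassCurve ℤ) (hΔ : W.Δ ≠ 0) (hW : W.IsSemistableModel) (h5 : W.ModRepIsIrreducible 5) : ∃ W' : WeierstrassCurve ℤ, W'.Δ ≠ 0 ∧ W'.IsSemistableModel ∧ W'.ModRepIsIrreducible 3 ∧ ∀ ℓ : ℕ, ℓ.Prime → W.IsGoodPrimeFor ℓ → W'.IsGoodPrimeFor ℓ → ℓ ≠ 5 → (5 : ℤ) ∣ (W'.apOfModel ℓ - W.apOfModel ℓ) :=
  Fermat.Agent.S52.Final.switch W hΔ hW h5

end Fermat.Agent.S52
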