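import Fermat.Statements.S54
import Fermat.Agent.S54.Frob

set_option autoImplicit false
open GaloisRep GaloisRep.DeformationRingData

namespace Fermat.Agent.S54

open Polynomial in
theorem charpoly_baseChangeAlong {A B : Type} [CommRing A] [IsLocalRing A] [CommRing B]
    [IsLocalRing B] (φ : A →+* B) (hφ : IsLocalHom φ) (ρ : GaloisRepAdic A) (σ : GQ) :
    LinearMap.charpoly ((ρ.baseChangeAlong φ hφ).ρ σ) = (LinearMap.charpoly (ρ.ρ σ)).map φ := by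
  let _ : Algebra A B := φ.toAlgebra
  exact LinearMap.charpoly_baseChange (ρ.ρ σ) B

open Polynomial in
theorem charpoly_eq_of_equiv {A : Type} [CommRing A] [IsLocalRing A] {ρ₁ ρ₂ : GaloisRepAdic A}
    (e : GaloisRepAdic.Equiv ρ₁ ρ₂) (σ : GQ) :
    LinearMap.charpoly (ρ₁.ρ σ) = LinearMap.charpoly (ρ₂.ρ σ) := by
  have h : e.toLinearEquiv.conj (ρ₁.ρ σ) = ρ₂.ρ σ := by
    apply LinearMap.ext
    intro x
    rw [LinearEquiv.conj_apply_apply, e.map_apply, LinearEquiv.apply_symm_apply]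
  rw [← h, LinearEquiv.charpoly_conj]

open Polynomial in
theorem result {𝒪 : Type} [CommRing 𝒪] [IsDomain 𝒪] [IsDiscreteValuationRing 𝒪] [IsAdicComplete (IsLocalRing.maximalIdeal 𝒪) 𝒪] {ρbar : ResidualGaloisRep (IsLocalRing.ResidueField 𝒪)} {𝒟 : ∀ ⦃A : Type⦄ [CommRing A] [IsLocalRing A] [Algebra 𝒪 A], GaloisRepAdic A → Prop} (D : GaloisRep.DeformationRingData 𝒪 ρbar 𝒟) {N : ℕ} [NeZero N] {S : Set ℕ} {θ : CuspForm.heckeAlgebra N 2 S →+* IsLocalRing.ResidueField 𝒪} {T : Type} [CommRing T] [IsLocalRing T] [IsNoetherianRing T] [IsAdicComplete (IsLocalRing.maximalIdeal T) T] [Algebra 𝒪 T] [IsLocalHom (algebraMap 𝒪 T)] [Module.Finite 𝒪 T] [Module.Free 𝒪 T] (H : CuspForm.HeckeGaloisRepDatum N S 𝒪 θ T) (hS : ∀ q : ℕ, q.Prime → q ∣ N → q ∈ S) (h𝒟 : 𝒟 H.ρ) (hres : H.ρ.residual.IsEquiv (ρbar.baseChangeAlong (IsLocalRing.ResidueField.map (algebraMap 𝒪 T)))) : ∃ φ : D.R →ₐ[𝒪] T, Function.Surjective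 φ ∧ ∃ hφ : IsLocalHom (φ : D.R →+* T), (D.ρ.baseChangeAlong (φ : D.R →+* T) hφ).IsEquiv H.ρ := by
  obtain ⟨φ, ⟨hφ, ⟨e⟩⟩, -⟩ := D.universal T H.residue_surjective H.ρ h𝒟 hres
  refine ⟨φ, ?_, hφ, ⟨e⟩⟩
  -- key: every `π (T_ℓ)` lies in the range of `φ`
  have hT : ∀ {ℓ : ℕ} (hℓ : ℓ.Prime) (hℓN : ¬ ℓ ∣ N) (hℓS : ℓ ∉ S),
      H.π (CuspForm.heckeAlgebra.T hℓ hℓN hℓS) ∈ φ.range := by
    intro ℓ hℓ hℓN hℓS
    have : Fact ℓ.Prime := ⟨hℓ⟩
    obtain ⟨A, hA⟩ := exists_liesOverPrime ℓ hℓ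
    obtain ⟨σ, hσ⟩ := exists_isFrobeniusAt A hA
    have h1 := H.charpoly_frob ℓ hℓ hℓN hℓS A hA σ hσ
    rw [← charpoly_eq_of_equiv e σ, charpoly_baseChangeAlong] at h1
    have h2 := congrArg (fun p => p.coeff 1) h1
    simp only [coeff_map, coeff_add, coeff_sub, coeff_X_pow, coeff_C_mul, coeff_X_one] at h2
    rw [coeff_C, if_neg (by norm_num : (1 : ℕ) ≠ 0), if_neg (by norm_num : (1 : ℕ) ≠ 2), mul_one,
      add_zero, zero_sub] at h2
    have h3 : φ ((LinearMap.charpoly (D.ρ.ρ σ)).coeff 1) =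
        -H.π (CuspForm.heckeAlgebra.T hℓ hℓN hℓS) := h2
    rw [AlgHom.mem_range]
    refine ⟨-((LinearMap.charpoly (D.ρ.ρ σ)).coeff 1), ?_⟩
    rw [map_neg, h3, neg_neg]
  -- every element of the Hecke algebra maps into the range of `φ`
  have hall : ∀ (x : Module.End ℂ (CuspForm (CongruenceSubgroup.Gamma0 N) 2))
      (hx : x ∈ CuspForm.heckeAlgebra N 2 S), H.π ⟨x, hx⟩ ∈ φ.range := by
    intro x hx
    refine Algebra.adjoin_induction (s := CuspForm.heckeGenerators N 2 S)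
      (p := fun x hx => H.π ⟨x, hx⟩ ∈ φ.range) ?_ ?_ ?_ ?_ hx
    · rintro x (⟨ℓ, hℓ, hℓN, hℓS, rfl⟩ | ⟨q, hqN, hq, hqS, rfl⟩)
      · exact hT hℓ hℓN hℓS
      · exact absurd (hS q hq hqN) hqS
    · intro r
      have : (⟨algebraMap ℤ _ r, Subalgebra.algebraMap_mem _ r⟩ : CuspForm.heckeAlgebra N 2 S) =
          ((r : ℤ) : CuspForm.heckeAlgebra N 2 S) := by
        apply Subtype.ext
        simp
      rw [this, map_intCast]
      exact intCast_mem _ r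
    · intro x y hx hy hpx hpy
      have : (⟨x + y, add_mem hx hy⟩ : CuspForm.heckeAlgebra N 2 S) = ⟨x, hx⟩ + ⟨y, hy⟩ := rfl
      rw [this, map_add]
      exact add_mem hpx hpy
    · intro x y hx hy hpx hpy
      have : (⟨x * y, mul_mem hx hy⟩ : CuspForm.heckeAlgebra N 2 S) = ⟨x, hx⟩ * ⟨y, hy⟩ := rfl
      rw [this, map_mul]
      exact mul_mem hpx hpy
  rw [← AlgHom.range_eq_top, eq_top_iff, ← H.adjoin_range_π]
  refine Algebra.adjoin_le ?_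
  rintro _ ⟨t, rfl⟩
  exact hall t.1 t.2

end Fermat.Agent.S54
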