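import Fermat.Statements.S55
import Fermat.Agent.CFT.C7.GlobalCF
import Fermat.Agent.CFT.D.Datum.SuppClass
import Fermat.Agent.CFT.C7.F2Final

set_option autoImplicit false
open CategoryTheory Module groupCohomology ExtCitation
open groupCohomology

namespace Fermat.Agent.S55

open Fermat.Agent.CFT Fermat.Agent.CFT.D.DatumBuild

theorem result
    {p : ℕ} [Fact p.Prime] (hp2 : p ≠ 2) (S : Finset Nat.Primes) (hpS : pPrime p ∈ S)
    (M : Rep (ZMod p) (AlgebraicClosure ℚ ≃ₐ[ℚ] AlgebraicClosure ℚ))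
    [FiniteDimensional (ZMod p) M]
    (hsm : ∀ m : M, ∃ F : IntermediateField ℚ (AlgebraicClosure ℚ), FiniteDimensional ℚ F ∧
      ∀ s ∈ F.fixingSubgroup, M.ρ s m = m)
    (hMur : ∀ q : Nat.Primes, q ∉ S → ∀ A : ValuationSubring (AlgebraicClosure ℚ),
      A.LiesOverPrime (q : ℕ) → ∀ g ∈ A.inertiaSubgroupIn ℚ, M.ρ g = 1) :
    ∃ B : sha₁ S (M.dualTwist (cycloChar p)) →ₗ[ZMod p] sha₂ S M →ₗ[ZMod p] ZMod p,
      (∀ y, (∀ x, B y x = 0) → y = 0) ∧ (∀ x, (∀ y, B y x = 0) → x = 0) :=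
  result_of_global hp2 hpS
    ⟨C7.GlobalCF.globalCF S p hp2 ⟨_, hpS⟩,
      supp_of_cf p S hp2 hpS (C7.GlobalCF.globalCF S p hp2 ⟨_, hpS⟩),
      C7.F2Final.n3_Zp_of_cf p S hp2 hpS (C7.GlobalCF.globalCF S p hp2 ⟨_, hpS⟩)⟩ M hsm hMur

end Fermat.Agent.S55
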