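/-
S56 (row 50): Taylor-Wiles primes and the surjections from power series rings onto the strictly
ordinary and the flat deformation rings (PROJECT T).

Assembly: `S56/Main/Unpack.frozen_of_halves` <- `S56/Count/Halves.halves_of_exports` <-
  (X1) `S56/Grp.twSet_nonempty` (group theory of the Taylor-Wiles primes),
  (X2)+(X3) `S56/Base/Final.exports_of_fl` (Wiles-Greenberg count: local pairing, Poitou-Tate,
            Euler characteristic, dictionary, finiteness),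
  (a3) `S56/Flat/Main.card_LcOf_fl_le` (the flat local bound at p).
The statement below is the frozen statement, byte-identical to the template.
-/
import Fermat.Statements.S56
import Fermat.Agent.S56.Main.Unpack
import Fermat.Agent.S56.Count.Halves
import Fermat.Agent.S56.Base.Final
import Fermat.Agent.S56.Grp.Residue.Residue
import Fermat.Agent.S56.Flat.Main.Export

set_option autoImplicit false
set_option autoImplicit false
open Polynomial IsLocalRing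
open ResidualGaloisRep

namespace Fermat.Agent.S56

theorem result
    {𝒪 : Type} [CommRing 𝒪] [IsDomain 𝒪] [IsDiscreteValuationRing 𝒪]
    [IsAdicComplete (maximalIdeal 𝒪) 𝒪] [Finite (ResidueField 𝒪)]
    (p : ℕ) [Fact p.Prime] (hp2 : p ≠ 2) (hp𝒪 : (p : 𝒪) ∈ maximalIdeal 𝒪)
    (ρbar : ResidualGaloisRep (ResidueField 𝒪))
    (habs : ρbar.IsAbsolutelyIrreducible)
    (hdet : (GaloisRepAdic.ofResidualGaloisRep ρbar).DetIsCyclotomic p)
    (hsplit : ∀ σ : AlgebraicClosure ℚ ≃ₐ[ℚ] AlgebraicClosure ℚ,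
      ∃ α β : ResidueField 𝒪, LinearMap.charpoly (ρbar.ρ σ) = (X - C α) * (X - C β))
    (hTW : ∀ (K : Type) [Field K] [Algebra (ResidueField 𝒪) K]
      (G : Subgroup (AlgebraicClosure ℚ ≃ₐ[ℚ] AlgebraicClosure ℚ)), G.index = 2 →
      ∀ V : Submodule K (ρbar.baseChange K).V,
        (∀ σ ∈ G, ∀ x ∈ V, (ρbar.baseChange K).ρ σ x ∈ V) → V = ⊥ ∨ V = ⊤)
    (S Smin : Finset ℕ) (hpSmin : p ∈ Smin) (hSmin : Smin ⊆ S) (hS : ∀ q ∈ S, q.Prime)
    (hmin : ∀ q : ℕ, q.Prime → q ≠ p → (q ∈ Smin ↔ ¬ ρbar.IsUnramifiedAt q)) :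
    (∃ r : ℕ, ∀ n : ℕ, ∃ qv : Fin r → ℕ, Function.Injective qv ∧
      (∀ i, (qv i).Prime ∧ qv i ∉ S ∧ p ^ (n + 1) ∣ qv i - 1) ∧
      (∀ i, ∀ P : ValuationSubring (AlgebraicClosure ℚ), P.LiesOverPrime (qv i) →
        ∀ φ : AlgebraicClosure ℚ ≃ₐ[ℚ] AlgebraicClosure ℚ, P.IsFrobeniusAt φ (qv i) →
          ∃ α β : ResidueField 𝒪, α ≠ β ∧ LinearMap.charpoly (ρbar.ρ φ) = (X - C α) * (X - C β)) ∧
      ∀ DQ : GaloisRep.DeformationRingData 𝒪 ρbar (fun _A _ _ _ ρ =>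
          GaloisRep.strictOrdinaryCondition 𝒪 p (Smin ∪ Finset.univ.image qv) ρ ∧
            ∀ q ∈ Smin, q.Prime → q ≠ p → ρ.IsUnipotentOnInertiaAt q),
        ∃ γ : MvPowerSeries (Fin r) 𝒪 →ₐ[𝒪] DQ.R, Function.Surjective γ) ∧
    (∃ r : ℕ, ∀ n : ℕ, ∃ qv : Fin r → ℕ, Function.Injective qv ∧
      (∀ i, (qv i).Prime ∧ qv i ∉ S ∧ p ^ (n + 1) ∣ qv i - 1) ∧
      (∀ i, ∀ P : ValuationSubring (AlgebraicClosure ℚ), P.LiesOverPrime (qv i) →
        ∀ φ : AlgebraicClosure ℚ ≃ₐ[ℚ] AlgebraicClosure ℚ, P.IsFrobeniusAt φ (qv i) →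
          ∃ α β : ResidueField 𝒪, α ≠ β ∧ LinearMap.charpoly (ρbar.ρ φ) = (X - C α) * (X - C β)) ∧
      ∀ DQ : GaloisRep.DeformationRingData 𝒪 ρbar (fun _A _ _ _ ρ =>
          GaloisRep.flatCondition 𝒪 p (Smin ∪ Finset.univ.image qv) ρ ∧
            ∀ q ∈ Smin, q.Prime → q ≠ p → ρ.IsUnipotentOnInertiaAt q),
        ∃ γ : MvPowerSeries (Fin r) 𝒪 →ₐ[𝒪] DQ.R, Function.Surjective γ) := by
  haveI hchar : CharP (ResidueField 𝒪) p :=
    Fermat.Agent.S56.Cheb.Galois.CycChar.charP_of_detIsCyclotomic p ρbar hdet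
  letI : Algebra (ZMod p) (ResidueField 𝒪) := ZMod.algebra (ResidueField 𝒪) p
  obtain ⟨hso, hfl⟩ := Fermat.Agent.S56.Count.Halves.halves_of_exports p hp2 ρbar habs hdet hsplit
    hTW S Smin hpSmin hSmin hS hmin
    (fun n G _ _ π χ h c hc hnc => Fermat.Agent.S56.Grp.twSet_nonempty hp2 π χ h c hc hnc)
    (fun b rbar hb => Fermat.Agent.S56.Base.Final.exports_of_fl p hp2 ρbar habs hdet b rbar hb Smin
      (fun q hq => hS q (hSmin hq)) hpSmin hmin
      (Fermat.Agent.S56.Flat.Main.card_LcOf_fl_le hp2 ρbar hdet hsplit b rbar hb))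
  exact Fermat.Agent.S56.Main.Unpack.frozen_of_halves p ρbar S Smin hso hfl

end Fermat.Agent.S56
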